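import Fermat.Agent.FerreroAbelian.Crossing
import Fermat.Agent.IwasawaMinus.Roots
import Mathlib.Algebra.CharP.Lemmas
import Mathlib.RingTheory.Ideal.Quotient.Basic

/-!
# Twisted branches over the integers of an algebraic closure of `ℚ_p`

For an odd pair `(χ, u)` the compatible system of the twisted Stickelberger polynomials has a
coefficient of absolute value `1` (`exists_unit_coeff`), so the values
`(1/N) ∑ χ(a) η ^ k r_{a,k}`, `η = θ(u) ζ`, are at least `‖ζ - 1‖ ^ λ` for `ζ` of high order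
(`exists_lower_bound`).
-/

set_option autoImplicit false
set_option linter.unusedSectionVars false
set_option linter.style.haveILetI false

noncomputable section

open Polynomial
open FA.IwasawaMinus

namespace FA.FerreroAbelian

variable {p : ℕ} [hp : Fact p.Prime] {d g : ℕ} [NeZero d]

/-- The integers. -/
def intR (p : ℕ) [Fact p.Prime] : Subring (PadicAlgCl p) where
  carrier := {x | ‖x‖ ≤ 1}
  mul_mem' {a b} ha hb := by
    simp only [Set.mem_ofPred_eq, norm_mul] at ha hb ⊢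
    exact mul_le_one₀ ha (norm_nonneg _) hb
  one_mem' := by simp
  add_mem' {a b} ha hb := (IsUltrametricDist.norm_add_le_max a b).trans (max_le ha hb)
  zero_mem' := by simp
  neg_mem' {a} ha := by simpa using ha

theorem norm_intR_le (x : intR p) : ‖(x : PadicAlgCl p)‖ ≤ 1 := x.2

/-- The elements of absolute value below `1`. -/
def maxId (p : ℕ) [Fact p.Prime] : Ideal (intR p) where
  carrier := {x | ‖(x : PadicAlgCl p)‖ < 1}
  add_mem' {a b} ha hb := (IsUltrametricDist.norm_add_le_max _ _).trans_lt (max_lt ha hb)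
  zero_mem' := by simp
  smul_mem' a b hb := by
    simp only [Set.mem_ofPred_eq, smul_eq_mul, Subring.coe_mul, norm_mul] at hb ⊢
    exact (mul_le_of_le_one_left (norm_nonneg _) a.2).trans_lt hb

theorem mem_maxId {x : intR p} : x ∈ maxId p ↔ ‖(x : PadicAlgCl p)‖ < 1 := Iff.rfl

instance isPrime_maxId : (maxId p).IsPrime := by
  refine ⟨fun h => ?_, fun {a b} h => ?_⟩
  · have h1 : (1 : intR p) ∈ maxId p := h ▸ Submodule.mem_top
    rw [mem_maxId, Subring.coe_one, norm_one] at h1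
    exact lt_irrefl _ h1
  · simp only [mem_maxId, Subring.coe_mul, norm_mul] at h ⊢
    by_contra hno
    push Not at hno
    nlinarith [hno.1, hno.2, a.2, b.2]

/-- The residue ring. -/
abbrev Res (p : ℕ) [Fact p.Prime] : Type := intR p ⧸ maxId p

theorem natCast_prime_eq_zero : (p : Res p) = 0 := by
  rw [← map_natCast (Ideal.Quotient.mk (maxId p)), Ideal.Quotient.eq_zero_iff_mem, mem_maxId]
  simp only [SubringClass.coe_natCast, norm_p]
  exact inv_lt_one_of_one_lt₀ (by exact_mod_cast hp.out.one_lt)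

theorem two_ne_zero_res (hp2 : p ≠ 2) : (2 : Res p) ≠ 0 := by
  intro h
  rw [show (2 : Res p) = ((2 : ℕ) : Res p) by norm_num,
    ← map_natCast (Ideal.Quotient.mk (maxId p)), Ideal.Quotient.eq_zero_iff_mem, mem_maxId,
    SubringClass.coe_natCast] at h
  rw [norm_natCast_of_not_dvd
    (fun e => hp2 ((Nat.prime_dvd_prime_iff_eq hp.out Nat.prime_two).1 e))] at h
  exact lt_irrefl _ h

/-- The Teichmüller representative as an integer. -/
def thetaO (u : (ZMod p)ˣ) : intR p :=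
  ⟨theta u, (norm_eq_one_of_pow (theta_pow_card u)
    (Nat.sub_pos_of_lt hp.out.one_lt).ne').le⟩

theorem coe_thetaO (u : (ZMod p)ˣ) : (thetaO u : PadicAlgCl p) = theta u := rfl

theorem thetaO_pow_card (u : (ZMod p)ˣ) : thetaO u ^ (p - 1) = 1 :=
  Subtype.ext (theta_pow_card u)

theorem thetaO_pow_prime_pow (u : (ZMod p)ˣ) (n : ℕ) : thetaO u ^ p ^ n = thetaO u :=
  Subtype.ext (theta_pow_prime_pow u n)

/-- The system of a branch. -/
def sysO (χ : ZMod d → intR p) (g : ℕ) (u : (ZMod p)ˣ) (n : ℕ) : (intR p)[X] :=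
  (poly χ p g n).comp (C (thetaO u) * (1 + X))

/-- Vanishing modulo `X ^ q - w`. -/
theorem sum_mul_pow_eq_zero' {R : Type*} [CommRing R] [Nontrivial R] {w : R} {q m : ℕ}
    (hq : 0 < q) (a : ℕ → R) (h : X ^ q - C w ∣ ∑ k ∈ Finset.range (q * m), C (a k) * X ^ k)
    {k : ℕ} (hk : k < q) : ∑ i ∈ Finset.range m, a (i * q + k) * w ^ i = 0 := by
  set F : R[X] := ∑ l ∈ Finset.range q, C (∑ i ∈ Finset.range m, a (i * q + l) * w ^ i) * X ^ l
    with hF
  have hdiff : X ^ q - C w ∣ (∑ k ∈ Finset.range (q * m), C (a k) * X ^ k) - F := by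
    rw [hF, sum_range_mul', Finset.sum_comm, ← Finset.sum_sub_distrib]
    refine Finset.dvd_sum fun l _ => ?_
    rw [map_sum, Finset.sum_mul, ← Finset.sum_sub_distrib]
    refine Finset.dvd_sum fun i _ => ?_
    rw [map_mul, map_pow, pow_add, mul_comm i q, pow_mul, mul_assoc _ (C w ^ i), ← mul_sub,
      ← sub_mul]
    exact ((sub_dvd_pow_sub_pow _ _ _).mul_right _).mul_left _
  have hFd : X ^ q - C w ∣ F := (dvd_sub_right h).mp hdiff
  have hdeg : F.degree < (q : WithBot ℕ) := by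
    rw [hF]
    exact (degree_sum_le _ _).trans_lt ((Finset.sup_lt_iff (WithBot.bot_lt_coe _)).mpr fun l hl =>
      (degree_C_mul_X_pow_le _ _).trans_lt (by exact_mod_cast Finset.mem_range.mp hl))
  have h0 : F = 0 := by
    have hm : (X ^ q - C w : R[X]).Monic := monic_X_pow_sub_C w hq.ne'
    rw [← (modByMonic_eq_self_iff hm).2 (by rwa [degree_X_pow_sub_C hq] : F.degree < _),
      (modByMonic_eq_zero_iff_dvd hm).2 hFd]
  have h1 := congrArg (fun f => coeff f k) h0
  simp only [hF, finsetSum_coeff, coeff_C_mul_X_pow, coeff_zero] at h1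
  rwa [Finset.sum_eq_single k (fun l _ hl => if_neg fun e => hl e.symm)
    (fun h => absurd (Finset.mem_range.mpr hk) h), if_pos rfl] at h1

/-- **A coefficient of absolute value one.** -/
theorem exists_unit_coeff (hp2 : p ≠ 2) (hg : IsGen p g) (hd : d.Coprime p) (χ : ZMod d → intR p)
    (h1 : χ 1 = 1) (hmul : ∀ a b, χ (a * b) = χ a * χ b) (u : (ZMod p)ˣ)
    (hodd : thetaO u ^ ((p - 1) / 2) * χ (-1) = -1) :
    ∃ n j, j < p ^ n ∧ ‖((sysO χ g u n).coeff j : PadicAlgCl p)‖ = 1 := by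
  by_contra! hno
  set π : intR p →+* Res p := Ideal.Quotient.mk (maxId p)
  set w : Res p := π (thetaO u) with hw
  set ψ : ZMod d → Res p := π ∘ χ with hψ
  have h2 := two_ne_zero_res (p := p) hp2
  have hψ1 : ψ 1 = 1 := by simp only [hψ, Function.comp_apply, h1, map_one]
  have hψm : ∀ a b, ψ (a * b) = ψ a * ψ b := fun a b => by
    simp only [hψ, Function.comp_apply, hmul, map_mul]
  have hwodd : w ^ ((p - 1) / 2) * ψ (-1) = -1 := by
    simp only [hw, hψ, Function.comp_apply, ← map_pow, ← map_mul, hodd, map_neg, map_one]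
  have hc : 2 ≤ cF p d := by
    have := Nat.mul_pos hp.out.pos (NeZero.pos d)
    rw [cF]
    omega
  obtain ⟨n, β, hβ, hne⟩ := exists_sum_ne_zero (d := d) hp2 hg h2 ψ hψ1 hwodd hc cast_cF_left
  apply hne
  haveI : NeZero (p ^ (n + 1)) := ⟨pow_ne_zero _ hp.out.ne_zero⟩
  set q := p ^ n with hq
  have hq0 : 0 < q := pow_pos hp.out.pos n
  have hwcard : w ^ (p - 1) = 1 := by rw [hw, ← map_pow, thetaO_pow_card, map_one]
  have hwq : w ^ q = w := by rw [hw, ← map_pow, thetaO_pow_prime_pow]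
  set v : Res p := w ^ (p - 2)
  have hwv : w * v = 1 := by
    rw [← pow_succ', show p - 2 + 1 = p - 1 by have := hp.out.two_le; omega, hwcard]
  have hvq : v ^ q = v := by rw [← pow_mul, mul_comm, pow_mul, hwq]
  -- the polynomial vanishes modulo `X ^ q - w`
  have hdvd : X ^ q - C w ∣ poly ψ p g n := by
    have hX : X ^ q ∣ (poly ψ p g n).comp (C w * (1 + X)) := by
      refine X_pow_dvd_iff.2 fun j hj => ?_
      have e : (poly ψ p g n).comp (C w * (1 + X)) = (sysO χ g u n).map π := by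
        rw [sysO, map_comp, poly_map, Polynomial.map_mul, map_C, Polynomial.map_add,
          Polynomial.map_one, map_X]
      rw [e, coeff_map, Ideal.Quotient.eq_zero_iff_mem, mem_maxId]
      exact lt_of_le_of_ne (norm_intR_le _) (hno n j hj)
    obtain ⟨Q, hQ⟩ := hX
    have h := congrArg (fun f => f.comp (C v * X - 1)) hQ
    simp only [comp_assoc, mul_comp, C_comp, add_comp, one_comp, X_comp, pow_comp,
      add_sub_cancel, ← mul_assoc, ← map_mul, hwv, map_one, one_mul, comp_X] at h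
    have hch : (C v * X - 1 : (Res p)[X]) ^ q = C v * X ^ q - 1 := by
      obtain ⟨r, hr⟩ := exists_add_pow_prime_pow_eq hp.out (C v * X : (Res p)[X]) (-1) n
      have hp0 : (p : (Res p)[X]) = 0 := by
        rw [← map_natCast C, natCast_prime_eq_zero, map_zero]
      have hmp : (C v * X : (Res p)[X]) ^ q = C (v ^ q) * X ^ q := by
        exact (mul_pow (C v : (Res p)[X]) X q).trans
          (congrArg (· * X ^ q) (C_pow (a := v) (n := q)).symm)
      rw [sub_eq_add_neg, hq, hr, hp0, (hp.out.odd_of_ne_two hp2).pow.neg_one_pow, ← hq, hmp, hvq]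
      simp [sub_eq_add_neg]
    rw [h, hch]
    refine Dvd.dvd.mul_right ⟨C v, ?_⟩ _
    rw [sub_mul, ← map_mul, hwv, map_one]
    ring
  -- the sums vanish
  set F : ZMod d → ZMod (p ^ (n + 1)) → Res p :=
    fun b y => ((cF p d * fr d (p ^ (n + 1)) b y / (d * p ^ (n + 1)) : ℕ) : Res p) with hF
  set e : ZMod (p ^ (n + 1)) := (d : ZMod (p ^ (n + 1)))⁻¹ with he
  have hPu : ((p ^ (n + 1) : ℕ) : ZMod d) * ((p ^ (n + 1) : ℕ) : ZMod d)⁻¹ = 1 :=
    ZMod.coe_mul_inv_eq_one _ (coprime_level hd n).symm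
  have hcR : (cF p d : Res p) = 1 := by simp [cF, natCast_prime_eq_zero]
  have hk0 : ∀ k < q, ∑ i ∈ Finset.range (p - 1),
      w ^ i * ∑ b, ψ b * F b (e * (g : ZMod (p ^ (n + 1))) ^ k * gzeta p g n ^ i) = 0 :=
      fun k hk => by
    have hsum := sum_mul_pow_eq_zero' hq0
      (fun k => ∑ a, ψ a * (coefA d p g n a k : Res p)) (m := p - 1) (w := w)
      (by rw [mul_comm q]; exact hdvd) hk
    have hterm : ∀ i, (∑ a, ψ a * (coefA d p g n a (i * q + k) : Res p)) * w ^ i =
        (2 * ψ ((p ^ (n + 1) : ℕ) : ZMod d)) *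
          (w ^ i * ∑ b, ψ b * F b (e * (g : ZMod (p ^ (n + 1))) ^ k * gzeta p g n ^ i)) :=
        fun i => by
      rw [Finset.mul_sum, Finset.mul_sum, Finset.sum_mul]
      symm
      refine Fintype.sum_bijective (fun b : ZMod d => ((p ^ (n + 1) : ℕ) : ZMod d) * b)
        (Function.bijective_iff_has_inverse.2
          ⟨fun a => ((p ^ (n + 1) : ℕ) : ZMod d)⁻¹ * a, fun b => by
          simp only
          rw [← mul_assoc, mul_comm _ ((p ^ (n + 1) : ℕ) : ZMod d), hPu, one_mul], fun a => by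
          simp only
          rw [← mul_assoc, hPu, one_mul]⟩) _ _ fun b => ?_
      have hy : (g : ZMod (p ^ (n + 1))) ^ (i * q + k) =
          (g : ZMod (p ^ (n + 1))) ^ k * gzeta p g n ^ i := by
        rw [gzeta, ← pow_mul, ← pow_add]
        congr 1
        rw [hq]
        ring
      rw [hψm, coefA, res, ← mul_assoc ((p ^ (n + 1) : ℕ) : ZMod d)⁻¹,
        mul_comm _ ((p ^ (n + 1) : ℕ) : ZMod d), hPu, one_mul, hy, hF, he]
      simp only [Int.cast_sub, Int.cast_add, Int.cast_mul, Int.cast_natCast, Int.cast_one,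
        Int.cast_ofNat, hcR, ← mul_assoc]
      ring
    rw [Finset.sum_congr rfl fun i _ => hterm i, ← Finset.mul_sum, mul_eq_zero] at hsum
    refine hsum.resolve_left (mul_ne_zero h2 fun h0 => ?_)
    have := hψm ((p ^ (n + 1) : ℕ) : ZMod d) ((p ^ (n + 1) : ℕ) : ZMod d)⁻¹
    rw [hPu, hψ1, h0, zero_mul] at this
    exact one_ne_zero this
  have hde : (d : ZMod (p ^ (n + 1))) * e = 1 := natCast_mul_inv (coprime_level hd n)
  obtain ⟨s, -, hs⟩ := exists_pow_genUnit hg n
    ((IsUnit.of_mul_eq_one _ hde).mul hβ).unit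
  have hs' : (g : ZMod (p ^ (n + 1))) ^ s = (d : ZMod (p ^ (n + 1))) * β := by
    have := congrArg Units.val hs
    rw [Units.val_pow_eq_pow_val, genUnit_val, IsUnit.unit_spec] at this
    exact this
  have hβs : β = e * (g : ZMod (p ^ (n + 1))) ^ (s % q) * gzeta p g n ^ (s / q) := by
    rw [mul_assoc, gzeta, ← pow_mul, ← pow_add, ← hq, Nat.mod_add_div, hs', ← mul_assoc,
      mul_comm e, hde, one_mul]
  set G : ℕ → Res p := fun i =>
    w ^ i * ∑ b, ψ b * F b (e * (g : ZMod (p ^ (n + 1))) ^ (s % q) * gzeta p g n ^ i) with hG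
  have hper : ∀ i, G (i + (p - 1)) = G i := fun i => by
    simp only [hG, pow_add, hwcard, gzeta_pow_card hg, mul_one]
  have hshift := sum_range_shift G hper (s / q)
  rw [hk0 _ (Nat.mod_lt _ hq0)] at hshift
  refine ((mul_eq_zero (a := w ^ (s / q))).mp ?_).resolve_left
    (pow_ne_zero _ fun e0 => one_ne_zero (α := Res p) (by rw [← hwv, e0, zero_mul]))
  rw [Finset.mul_sum, ← hshift]
  refine Finset.sum_congr rfl fun i _ => ?_
  simp only [hG, hβs, hF, pow_add, mul_assoc]
  rw [mul_left_comm (w ^ (s / q)), mul_comm (gzeta p g n ^ (s / q))]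

/-- The systems are compatible. -/
theorem sysO_dvd_sub (hg : IsGen p g) (hd : d.Coprime p) (χ : ZMod d → intR p) (u : (ZMod p)ˣ)
    {n m : ℕ} (h : n ≤ m) :
    (1 + X) ^ p ^ n - 1 ∣ sysO χ g u m - sysO χ g u n := by
  induction m, h using Nat.le_induction with
  | base => rw [sub_self]; exact dvd_zero _
  | succ m hm ih =>
    have h1 : (1 + X) ^ p ^ n - 1 ∣ sysO χ g u (m + 1) - sysO χ g u m := by
      obtain ⟨t, ht⟩ := poly_compatible hg hd χ m
      rw [sysO, sysO, ← sub_comp, ht, mul_comp]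
      refine Dvd.dvd.mul_right ?_ _
      rw [sub_comp, pow_comp, X_comp, one_comp, mul_pow, ← map_pow, pow_mul (thetaO u),
        thetaO_pow_card, one_pow, map_one, one_mul]
      obtain ⟨r, hr⟩ : p ^ n ∣ (p - 1) * p ^ m := (pow_dvd_pow p hm).mul_left _
      rw [hr, pow_mul]
      exact sub_one_dvd_pow_sub_one _ _
    simpa using dvd_add h1 ih

/-- **The shape of the systems**: `μ = 0`. -/
theorem exists_shape (hp2 : p ≠ 2) (hg : IsGen p g) (hd : d.Coprime p) (χ : ZMod d → intR p)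
    (h1 : χ 1 = 1) (hmul : ∀ a b, χ (a * b) = χ a * χ b) (u : (ZMod p)ˣ)
    (hodd : thetaO u ^ ((p - 1) / 2) * χ (-1) = -1) :
    ∃ n₀ lam, ∃ δ < (1 : ℝ), 0 ≤ δ ∧ ∀ n, n₀ ≤ n →
      ‖((sysO χ g u n).coeff lam : PadicAlgCl p)‖ = 1 ∧
        ∀ j < lam, ‖((sysO χ g u n).coeff j : PadicAlgCl p)‖ ≤ δ := by
  classical
  obtain ⟨n₀, hn₀⟩ := exists_unit_coeff hp2 hg hd χ h1 hmul u hodd
  set lam := Nat.find hn₀ with hlam
  obtain ⟨hlt, hunit⟩ := Nat.find_spec hn₀
  obtain ⟨δ₁, hδ₁, hb⟩ : ∃ δ₁ < (1 : ℝ), ∀ j < lam,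
      ‖((sysO χ g u n₀).coeff j : PadicAlgCl p)‖ ≤ δ₁ := by
    rcases Nat.eq_zero_or_pos lam with h0 | hpos
    · exact ⟨0, one_pos, fun j hj => by omega⟩
    refine ⟨(Finset.range lam).sup' ⟨0, Finset.mem_range.2 hpos⟩
      fun j => ‖((sysO χ g u n₀).coeff j : PadicAlgCl p)‖, (Finset.sup'_lt_iff _).2 fun j hj =>
      lt_of_le_of_ne (norm_intR_le _) fun e => ?_, fun j hj =>
      Finset.le_sup' (fun j => ‖((sysO χ g u n₀).coeff j : PadicAlgCl p)‖) (Finset.mem_range.2 hj)⟩
    exact Nat.find_min hn₀ (Finset.mem_range.1 hj) ⟨(Finset.mem_range.1 hj).trans hlt, e⟩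
  refine ⟨n₀, lam, max (max δ₁ (p : ℝ)⁻¹) 0,
    max_lt (max_lt hδ₁ (inv_lt_one_of_one_lt₀ (by exact_mod_cast hp.out.one_lt))) one_pos,
    le_max_right _ _, fun n hn => ?_⟩
  have hdiff : ∀ j < p ^ n₀,
      ‖((sysO χ g u n).coeff j : PadicAlgCl p) - (sysO χ g u n₀).coeff j‖ ≤ (p : ℝ)⁻¹ :=
    fun j hj => by
    obtain ⟨t, ht⟩ := sysO_dvd_sub hg hd χ u hn
    obtain ⟨r, hr⟩ := exists_add_pow_prime_pow_eq hp.out (1 : (intR p)[X]) X n₀
    have hom : ((1 : (intR p)[X]) + X) ^ p ^ n₀ - 1 = X ^ p ^ n₀ + C (p : intR p) * (X * r) := by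
      rw [hr, one_pow, map_natCast]
      ring
    have hc := congrArg (fun f => f.coeff j) ht
    simp only [coeff_sub, hom, add_mul, coeff_add, mul_assoc, coeff_C_mul, coeff_X_pow_mul',
      if_neg (not_le.2 hj), zero_add] at hc
    rw [← AddSubgroupClass.coe_sub, hc, Subring.coe_mul, norm_mul, SubringClass.coe_natCast, norm_p]
    exact mul_le_of_le_one_right (by positivity) (norm_intR_le _)
  refine ⟨?_, fun j hj => ?_⟩
  · have h := hdiff lam hlt
    have hlt' : ‖((sysO χ g u n).coeff lam : PadicAlgCl p) - (sysO χ g u n₀).coeff lam‖ <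
        ‖((sysO χ g u n₀).coeff lam : PadicAlgCl p)‖ :=
      hunit ▸ h.trans_lt (inv_lt_one_of_one_lt₀ (by exact_mod_cast hp.out.one_lt))
    have h' := IsUltrametricDist.norm_add_eq_max_of_norm_ne_norm hlt'.ne
    rw [sub_add_cancel, max_eq_right hlt'.le, hunit] at h'
    exact h'
  · have h' := IsUltrametricDist.norm_add_le_max
      (((sysO χ g u n).coeff j : PadicAlgCl p) - (sysO χ g u n₀).coeff j)
      ((sysO χ g u n₀).coeff j : PadicAlgCl p)
    rw [sub_add_cancel] at h'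
    exact h'.trans (max_le
      (((hdiff j (hj.trans hlt)).trans (le_max_right _ _)).trans (le_max_left _ _))
      (((hb j hj).trans (le_max_left _ _)).trans (le_max_left _ _)))

/-- `(1/N) ∑ χ(a) η ^ k r_{a,k}`. -/
def bv (d p g n : ℕ) [NeZero d] {R : Type*} [Field R] (χ : ZMod d → R) (η : R) : R :=
  stickSum d p g n χ η / ((d * p ^ (n + 1) : ℕ) : R)

/-- **The lower bound for the values.** -/
theorem exists_lower_bound (hp2 : p ≠ 2) (hg : IsGen p g) (hd : d.Coprime p)
    (χ : ZMod d → intR p) (h1 : χ 1 = 1) (hmul : ∀ a b, χ (a * b) = χ a * χ b) (u : (ZMod p)ˣ)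
    (hodd : thetaO u ^ ((p - 1) / 2) * χ (-1) = -1) :
    ∃ k₀ lam, ∀ k, k₀ ≤ k → ∀ ζ : PadicAlgCl p, IsPrimitiveRoot ζ (p ^ (k + 1)) →
      ‖ζ - 1‖ ^ lam ≤ ‖bv d p g (k + 1) (fun a => (χ a : PadicAlgCl p)) (theta u * ζ)‖ := by
  obtain ⟨n₀, lam, δ, hδ1, hδ0, h⟩ := exists_shape hp2 hg hd χ h1 hmul u hodd
  have hπ0 : (0 : ℝ) < (p : ℝ)⁻¹ := inv_pos.2 (by exact_mod_cast hp.out.pos)
  obtain ⟨N, hN⟩ := exists_pow_lt_of_lt_one (pow_pos hπ0 lam) hδ1
  refine ⟨max n₀ N, lam, fun k hk ζ hζ => ?_⟩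
  have hk1 : n₀ ≤ k + 1 := ((le_max_left _ _).trans hk).trans k.le_succ
  obtain ⟨hmain, hbelow⟩ := h (k + 1) hk1
  set ρ := ‖ζ - 1‖ with hρ
  have hρφ := norm_sub_one_pow hζ
  have hρ1 := norm_sub_one_lt hζ
  have hρ0 : 0 < ρ := (norm_nonneg _).lt_of_ne fun e => by
    rw [← e, zero_pow (phi_pos k).ne'] at hρφ
    linarith
  have hδρ : δ < ρ ^ lam := by
    refine lt_of_pow_lt_pow_left₀ ((p - 1) * p ^ k) (by positivity) ?_
    rw [← pow_mul, mul_comm lam, pow_mul ρ, hρ, hρφ]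
    refine (pow_le_pow_of_le_one hδ0 hδ1.le ?_).trans_lt hN
    calc N ≤ k := (le_max_right _ _).trans hk
      _ ≤ p ^ k := (Nat.lt_pow_self hp.out.one_lt).le
      _ ≤ (p - 1) * p ^ k := Nat.le_mul_of_pos_left _ (Nat.sub_pos_of_lt hp.out.one_lt)
  set f := sysO χ g u (k + 1) with hf
  set x := ζ - 1 with hx
  -- the size of the value of the system
  have hrest : ‖eval₂ (intR p).subtype x (f.erase lam)‖ < ρ ^ lam := by
    refine lt_of_le_of_lt (b := max δ (ρ ^ (lam + 1))) ?_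
      (max_lt hδρ (pow_lt_pow_right_of_lt_one₀ hρ0 hρ1 (lt_add_one lam)))
    rw [eval₂_eq_sum_range]
    refine IsUltrametricDist.norm_sum_le_of_forall_le_of_nonneg
      (le_max_of_le_left hδ0) fun j _ => ?_
    rw [norm_mul, norm_pow, coeff_erase, Subring.coe_subtype]
    split_ifs with hj
    · rw [ZeroMemClass.coe_zero, norm_zero, zero_mul]
      exact le_max_of_le_left hδ0
    rcases lt_or_gt_of_ne hj with hlt | hgt
    · exact (mul_le_of_le_one_right (norm_nonneg _) (pow_le_one₀ (norm_nonneg _) hρ1.le)).trans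
        ((hbelow j hlt).trans (le_max_left _ _))
    · exact (mul_le_of_le_one_left (by positivity) (norm_intR_le _)).trans
        ((pow_le_pow_of_le_one (norm_nonneg _) hρ1.le hgt).trans (le_max_right _ _))
  have hval : ‖eval₂ (intR p).subtype x f‖ = ρ ^ lam := by
    have hlead : ‖eval₂ (intR p).subtype x (monomial lam (f.coeff lam))‖ = ρ ^ lam := by
      rw [eval₂_monomial, norm_mul, norm_pow, Subring.coe_subtype, hmain, one_mul]
    conv_lhs => rw [← monomial_add_erase f lam, eval₂_add]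
    rw [IsUltrametricDist.norm_add_eq_max_of_norm_ne_norm (hlead ▸ hrest.ne'), hlead,
      max_eq_left hrest.le]
  -- the Stickelberger value
  set η := theta u * ζ with hη
  have hev : eval₂ (intR p).subtype x f =
      (poly (fun a => (χ a : PadicAlgCl p)) p g (k + 1)).eval η := by
    rw [hf, sysO, eval₂_comp, ← eval_map, poly_map, eval₂_mul, eval₂_C, eval₂_add, eval₂_one,
      eval₂_X, hx, add_sub_cancel]
    rfl
  have hηφ : η ^ ((p - 1) * p ^ (k + 1)) = 1 := by
    rw [hη, mul_pow, pow_mul (theta u), theta_pow_card, one_pow, one_mul, mul_comm (p - 1),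
      pow_mul, hζ.pow_eq_one, one_pow]
  have hη1 : η ≠ 1 := fun e => by
    have e' := congrArg (fun t => t ^ p ^ (k + 1)) e
    simp only [hη, mul_pow, hζ.pow_eq_one, mul_one, one_pow, theta_pow_prime_pow] at e'
    rw [hη, e', one_mul] at e
    exact hζ.ne_one (Nat.one_lt_pow k.succ_ne_zero hp.out.one_lt) e
  have hu : IsUnit (cF p d : ZMod (p ^ (k + 1 + 1))) := by
    rw [ZMod.isUnit_iff_coprime]
    exact Nat.Coprime.pow_right _ (Nat.coprime_comm.1 (hp.out.coprime_iff_not_dvd.2 not_dvd_cF))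
  obtain ⟨s, -, hs⟩ := exists_pow_genUnit hg (k + 1) hu.unit
  have hs' : (cF p d : ZMod (p ^ (k + 1 + 1))) = (g : ZMod _) ^ s := by
    rw [← genUnit_val hg (k + 1), ← Units.val_pow_eq_pow_val, hs, IsUnit.unit_spec]
  have hpv := poly_value hg hd (fun a => (χ a : PadicAlgCl p)) hηφ hη1 hs'
  have hN : ((d * p ^ (k + 1 + 1) : ℕ) : PadicAlgCl p) ≠ 0 :=
    Nat.cast_ne_zero.2 (Nat.mul_ne_zero (NeZero.ne d) (pow_ne_zero _ hp.out.ne_zero))
  have hid : η ^ s * (poly (fun a => (χ a : PadicAlgCl p)) p g (k + 1)).eval η =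
      2 * ((cF p d : PadicAlgCl p) * η ^ s - 1) *
        bv d p g (k + 1) (fun a => (χ a : PadicAlgCl p)) η := by
    rw [bv, mul_div_assoc', eq_div_iff hN]
    linear_combination hpv
  have hη' : ‖η‖ = 1 := norm_eq_one_of_pow hηφ (phi_pos (k + 1)).ne'
  have hn := congrArg (fun t => ‖t‖) hid
  simp only [norm_mul, norm_pow, hη', one_pow, one_mul, ← hev, hval] at hn
  rw [hn]
  refine mul_le_of_le_one_left (norm_nonneg _) (mul_le_one₀ ?_ (norm_nonneg _) ?_)
  · simpa using (FA.IwasawaMinus.norm_natCast (p := p) 2).le.trans (PadicInt.norm_le_one _)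
  · rw [sub_eq_add_neg]
    refine (IsUltrametricDist.norm_add_le_max _ _).trans (max_le ?_ (by rw [norm_neg, norm_one]))
    rw [norm_mul, norm_pow, hη', one_pow, mul_one, FA.IwasawaMinus.norm_natCast]
    exact PadicInt.norm_le_one _

end FA.FerreroAbelian
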