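import Fermat.Agent.IwasawaMinus.Characters

/-!
# Twisted Stickelberger polynomials

For `d` prime to `p`, a function `χ` on `ZMod d`, `g` a generator modulo every power of `p` and
`r_{a,k}` the residue modulo `d p^(n+1)` congruent to `a` mod `d` and to `g ^ k` mod `p^(n+1)`, the
polynomials `∑_{a,k} χ(a) (2 ⌊c r_{a,k} / (d p^(n+1))⌋ + 1 - c) X ^ k`, `c = 1 + p d`, are
compatible as `n` grows, and at a root of unity they are a multiple of
`∑_{a,k} χ(a) η ^ k r_{a,k}`.
-/

set_option autoImplicit false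
set_option linter.unusedSectionVars false
set_option linter.style.haveILetI false

noncomputable section

open Polynomial
open FA.IwasawaMinus

namespace FA.FerreroAbelian

variable {p : ℕ} [hp : Fact p.Prime] {d g : ℕ} [NeZero d]

/-- The residue modulo `d P` congruent to `P b` mod `d` and to `d y` mod `P`. -/
def fr (d P : ℕ) (b : ZMod d) (y : ZMod P) : ℕ := (d * y.val + P * b.val) % (d * P)

theorem fr_lt (P : ℕ) [NeZero P] (b : ZMod d) (y : ZMod P) : fr d P b y < d * P :=
  Nat.mod_lt _ (Nat.mul_pos (NeZero.pos d) (NeZero.pos P))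

theorem cast_fr_left (P : ℕ) (b : ZMod d) (y : ZMod P) :
    (fr d P b y : ZMod d) = (P : ZMod d) * b := by
  have h : ((fr d P b y : ℕ) : ZMod d) = ((d * y.val + P * b.val : ℕ) : ZMod d) :=
    (ZMod.natCast_eq_natCast_iff _ _ _).2 ((Nat.mod_modEq _ _).of_mul_right _)
  rw [h]
  push_cast
  rw [ZMod.natCast_self, zero_mul, zero_add, ZMod.natCast_zmod_val]

theorem cast_fr_right (P : ℕ) [NeZero P] (b : ZMod d) (y : ZMod P) :
    (fr d P b y : ZMod P) = (d : ZMod P) * y := by
  have h : ((fr d P b y : ℕ) : ZMod P) = ((d * y.val + P * b.val : ℕ) : ZMod P) :=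
    (ZMod.natCast_eq_natCast_iff _ _ _).2 ((Nat.mod_modEq _ _).of_mul_left _)
  rw [h]
  push_cast
  rw [ZMod.natCast_self, zero_mul, add_zero, ZMod.natCast_zmod_val]

/-- A residue is determined by its two components. -/
theorem eq_of_casts {P : ℕ} (h : d.Coprime P) {r r' : ℕ} (hr : r < d * P) (hr' : r' < d * P)
    (h1 : (r : ZMod d) = (r' : ZMod d)) (h2 : (r : ZMod P) = (r' : ZMod P)) : r = r' :=
  Nat.ModEq.eq_of_lt_of_lt ((Nat.modEq_and_modEq_iff_modEq_mul h).1
    ⟨(ZMod.natCast_eq_natCast_iff _ _ _).1 h1, (ZMod.natCast_eq_natCast_iff _ _ _).1 h2⟩) hr hr'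

theorem natCast_mul_inv {P : ℕ} (h : d.Coprime P) : (d : ZMod P) * (d : ZMod P)⁻¹ = 1 :=
  ZMod.coe_mul_inv_eq_one d h

theorem coprime_level (hd : d.Coprime p) (n : ℕ) : d.Coprime (p ^ (n + 1)) := hd.pow_right _

/-- The residue congruent to `a` and to `g ^ k`. -/
def res (d p g n : ℕ) (a : ZMod d) (k : ℕ) : ℕ :=
  fr d (p ^ (n + 1)) (((p ^ (n + 1) : ℕ) : ZMod d)⁻¹ * a)
    ((d : ZMod (p ^ (n + 1)))⁻¹ * (g : ZMod (p ^ (n + 1))) ^ k)

theorem res_lt (n : ℕ) (a : ZMod d) (k : ℕ) : res d p g n a k < d * p ^ (n + 1) :=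
  haveI : NeZero (p ^ (n + 1)) := ⟨pow_ne_zero _ hp.out.ne_zero⟩
  fr_lt _ _ _

theorem cast_res_left (hd : d.Coprime p) (n : ℕ) (a : ZMod d) (k : ℕ) :
    (res d p g n a k : ZMod d) = a := by
  rw [res, cast_fr_left, ← mul_assoc, ZMod.coe_mul_inv_eq_one _ (coprime_level hd n).symm, one_mul]

theorem cast_res_right (hd : d.Coprime p) (n : ℕ) (a : ZMod d) (k : ℕ) :
    (res d p g n a k : ZMod (p ^ (n + 1))) = (g : ZMod (p ^ (n + 1))) ^ k := by
  haveI : NeZero (p ^ (n + 1)) := ⟨pow_ne_zero _ hp.out.ne_zero⟩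
  rw [res, cast_fr_right, ← mul_assoc, natCast_mul_inv (coprime_level hd n), one_mul]

/-- The regulariser `1 + p d`. -/
def cF (p d : ℕ) : ℕ := 1 + p * d

theorem not_dvd_cF : ¬ p ∣ cF p d := fun h =>
  hp.out.ne_one (Nat.dvd_one.1 ((Nat.dvd_add_left (dvd_mul_right p d)).1 h))

theorem cast_cF_left : (cF p d : ZMod d) = 1 := by simp [cF]

theorem cast_cF_prime : (cF p d : ZMod p) = 1 := by simp [cF]

/-- The coefficient of a residue. -/
def coefA (d p g n : ℕ) (a : ZMod d) (k : ℕ) : ℤ :=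
  2 * ((cF p d * res d p g n a k / (d * p ^ (n + 1)) : ℕ) : ℤ) + 1 - cF p d

/-- The twisted Stickelberger polynomial. -/
def poly {R : Type*} [CommRing R] (χ : ZMod d → R) (p g n : ℕ) : R[X] :=
  ∑ k ∈ Finset.range ((p - 1) * p ^ n), C (∑ a, χ a * (coefA d p g n a k : R)) * X ^ k

theorem poly_map {R S : Type*} [CommRing R] [CommRing S] (f : R →+* S) (χ : ZMod d → R) (n : ℕ) :
    (poly χ p g n).map f = poly (f ∘ χ) p g n := by
  simp only [poly, Polynomial.map_sum, Polynomial.map_mul, map_C, Polynomial.map_pow, map_X,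
    map_sum, map_mul, map_intCast, Polynomial.map_intCast, Function.comp_apply]

/-- The lifts of one residue are all its translates. -/
theorem sum_coefA (hg : IsGen p g) (hd : d.Coprime p) (n : ℕ) (a : ZMod d) (k : ℕ) :
    ∑ j ∈ Finset.range p, coefA d p g (n + 1) a (j * ((p - 1) * p ^ n) + k) =
      coefA d p g n a k := by
  haveI : NeZero (p ^ (n + 1)) := ⟨pow_ne_zero _ hp.out.ne_zero⟩
  haveI : NeZero (p ^ (n + 1 + 1)) := ⟨pow_ne_zero _ hp.out.ne_zero⟩
  set P := p ^ (n + 1) with hP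
  set N := d * P with hN
  set φ := (p - 1) * p ^ n with hφ
  set r := fun j => res d p g (n + 1) a (j * φ + k) with hr
  have hN0 : 0 < N := Nat.mul_pos (NeZero.pos d) (NeZero.pos P)
  have hφ0 : 0 < φ := phi_pos n
  have hmod : ∀ j, r j % N = res d p g n a k := fun j => by
    refine eq_of_casts (coprime_level hd n) (Nat.mod_lt _ hN0) (res_lt _ _ _) ?_ ?_
    · have e : ((r j % N : ℕ) : ZMod d) = (r j : ZMod d) :=
        (ZMod.natCast_eq_natCast_iff _ _ _).2 ((Nat.mod_modEq _ _).of_mul_right _)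
      rw [e, hr, cast_res_left hd, cast_res_left hd]
    · have e : ((r j % N : ℕ) : ZMod P) = (r j : ZMod P) :=
        (ZMod.natCast_eq_natCast_iff _ _ _).2 ((Nat.mod_modEq _ _).of_mul_left _)
      have h1 := congrArg (ZMod.castHom (pow_dvd_pow p (by omega) : P ∣ p ^ (n + 1 + 1)) (ZMod P))
        (cast_res_right (g := g) hd (n + 1) a (j * φ + k))
      rw [map_natCast, map_pow, map_natCast] at h1
      have h2 : (g : ZMod P) ^ φ = 1 := by rw [hφ, ← hg.2 n, pow_orderOf_eq_one]
      rw [e, cast_res_right hd]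
      refine h1.trans ?_
      rw [pow_add, mul_comm j, pow_mul, h2, one_pow, one_mul]
  have hlt : ∀ j, r j / N < p := fun j => by
    rw [Nat.div_lt_iff_lt_mul hN0, hN, hP]
    exact (res_lt _ _ _).trans_eq (by ring)
  have heq : ∀ j, r j = res d p g n a k + r j / N * N := fun j => by
    conv_lhs => rw [← Nat.mod_add_div (r j) N, hmod, mul_comm N]
  have hinj : Set.InjOn (fun j => r j / N) (Finset.range p : Set ℕ) := by
    intro i hi j hj e
    rw [Finset.coe_range, Set.mem_Iio] at hi hj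
    have h : r i = r j := by rw [heq i, heq j, show r i / N = r j / N from e]
    have hk : (g : ZMod (p ^ (n + 1 + 1))) ^ (i * φ + k) = (g : ZMod _) ^ (j * φ + k) := by
      rw [← cast_res_right hd (n + 1) a (i * φ + k), ← cast_res_right hd (n + 1) a (j * φ + k)]
      exact congrArg Nat.cast h
    have hfin : IsOfFinOrder (g : ZMod (p ^ (n + 1 + 1))) :=
      orderOf_pos_iff.1 (by rw [hg.2 (n + 1)]; exact phi_pos _)
    have hk' : (g : ZMod (p ^ (n + 1 + 1))) ^ (i * φ) = (g : ZMod _) ^ (j * φ) :=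
      (hfin.isUnit.pow k).mul_right_cancel ((pow_add _ _ _).symm.trans (hk.trans (pow_add _ _ _)))
    have hmodeq := hfin.pow_eq_pow_iff_modEq.1 hk'
    rw [hg.2 (n + 1), pow_succ, ← mul_assoc, ← hφ, mul_comm i, mul_comm j] at hmodeq
    have h' := Nat.ModEq.mul_left_cancel' hφ0.ne' hmodeq
    rwa [Nat.ModEq, Nat.mod_eq_of_lt hi, Nat.mod_eq_of_lt hj] at h'
  have himage : (Finset.range p).image (fun j => r j / N) = Finset.range p :=
    Finset.eq_of_subset_of_card_le
      (Finset.image_subset_iff.2 fun j _ => Finset.mem_range.2 (hlt j))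
      (by rw [Finset.card_image_of_injOn hinj])
  have hterm : ∀ j, coefA d p g (n + 1) a (j * φ + k) =
      (fun i => 2 * (((cF p d * res d p g n a k / N + cF p d * i) / p : ℕ) : ℤ) + 1 - cF p d)
        (r j / N) := fun j => by
    show coefA d p g (n + 1) a (j * φ + k) = _
    rw [coefA, show res d p g (n + 1) a (j * φ + k) = r j from rfl]
    conv_lhs => rw [heq j, mul_add, ← mul_assoc, pow_succ p (n + 1), ← mul_assoc d, ← hP, ← hN,
      ← Nat.div_div_eq_div_mul, Nat.add_mul_div_right _ _ hN0]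
  rw [Finset.sum_congr rfl fun j _ => hterm j, ← Finset.sum_image
    (g := fun j => r j / N)
    (f := fun i => 2 * (((cF p d * res d p g n a k / N + cF p d * i) / p : ℕ) : ℤ) + 1 - cF p d)
      hinj, himage, Finset.sum_sub_distrib, Finset.sum_add_distrib, ← Finset.mul_sum,
    two_mul_sum_div not_dvd_cF, Finset.sum_const, Finset.sum_const, Finset.card_range, coefA,
    ← hP, ← hN]
  simp only [nsmul_eq_mul, mul_one]
  ring

/-- **Compatibility.** -/
theorem poly_compatible (hg : IsGen p g) (hd : d.Coprime p) {R : Type*} [CommRing R]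
    (χ : ZMod d → R) (n : ℕ) :
    X ^ ((p - 1) * p ^ n) - 1 ∣ poly χ p g (n + 1) - poly χ p g n := by
  set φ := (p - 1) * p ^ n with hφ
  have e : poly χ p g n = ∑ j ∈ Finset.range p, ∑ k ∈ Finset.range φ,
      C (∑ a, χ a * (coefA d p g (n + 1) a (j * φ + k) : R)) * X ^ k := by
    rw [Finset.sum_comm, poly]
    refine Finset.sum_congr rfl fun k _ => ?_
    rw [← Finset.sum_mul, ← map_sum, Finset.sum_comm]
    congr 2
    refine Finset.sum_congr rfl fun a _ => ?_
    rw [← Finset.mul_sum, ← Int.cast_sum, sum_coefA hg hd]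
  rw [e, poly, show (p - 1) * p ^ (n + 1) = φ * p by rw [hφ, pow_succ]; ring, sum_range_mul',
    ← Finset.sum_sub_distrib]
  refine Finset.dvd_sum fun j _ => ?_
  rw [← Finset.sum_sub_distrib]
  refine Finset.dvd_sum fun k _ => ?_
  rw [pow_add, ← mul_sub, show X ^ (j * φ) * X ^ k - X ^ k = ((X ^ φ) ^ j - 1) * (X ^ k : R[X]) by
    rw [← pow_mul, mul_comm φ]; ring]
  exact ((sub_one_dvd_pow_sub_one _ _).mul_right _).mul_left _

/-- `∑ χ(a) η ^ k r_{a,k}`. -/
def stickSum (d p g n : ℕ) [NeZero d] {R : Type*} [CommRing R] (χ : ZMod d → R) (η : R) : R :=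
  ∑ a, χ a * ∑ k ∈ Finset.range ((p - 1) * p ^ n), η ^ k * (res d p g n a k : R)

/-- **The value at a root of unity.** -/
theorem poly_value (hg : IsGen p g) (hd : d.Coprime p) {R : Type*} [Field R] (χ : ZMod d → R)
    {n : ℕ} {η : R} (hη : η ^ ((p - 1) * p ^ n) = 1) (hη1 : η ≠ 1) {s : ℕ}
    (hs : (cF p d : ZMod (p ^ (n + 1))) = (g : ZMod (p ^ (n + 1))) ^ s) :
    η ^ s * ((d * p ^ (n + 1) : ℕ) : R) * (poly χ p g n).eval η =
      2 * ((cF p d : R) * η ^ s - 1) * stickSum d p g n χ η := by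
  haveI : NeZero (p ^ (n + 1)) := ⟨pow_ne_zero _ hp.out.ne_zero⟩
  set φ := (p - 1) * p ^ n with hφ
  set N := d * p ^ (n + 1) with hN
  set c := cF p d with hc
  have hN0 : 0 < N := Nat.mul_pos (NeZero.pos d) (NeZero.pos _)
  have hgφ : (g : ZMod (p ^ (n + 1))) ^ φ = 1 := by rw [hφ, ← hg.2 n, pow_orderOf_eq_one]
  have hdiv : ∀ a k, (N : ℤ) * ((c * res d p g n a k / N : ℕ) : ℤ) =
      (c * res d p g n a k : ℕ) - (res d p g n a (k + s) : ℤ) := fun a k => by
    have h : c * res d p g n a k % N = res d p g n a (k + s) := by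
      refine eq_of_casts (coprime_level hd n) (Nat.mod_lt _ hN0) (res_lt _ _ _) ?_ ?_
      · have e : ((c * res d p g n a k % N : ℕ) : ZMod d) = ((c * res d p g n a k : ℕ) : ZMod d) :=
          (ZMod.natCast_eq_natCast_iff _ _ _).2 ((Nat.mod_modEq _ _).of_mul_right _)
        rw [e, Nat.cast_mul, cast_res_left hd, cast_res_left hd, hc, cast_cF_left, one_mul]
      · have e : ((c * res d p g n a k % N : ℕ) : ZMod (p ^ (n + 1))) =
            ((c * res d p g n a k : ℕ) : ZMod (p ^ (n + 1))) :=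
          (ZMod.natCast_eq_natCast_iff _ _ _).2 ((Nat.mod_modEq _ _).of_mul_left _)
        rw [e, Nat.cast_mul, cast_res_right hd, cast_res_right hd, hs, ← pow_add, add_comm s k]
    have h' := Nat.div_add_mod (c * res d p g n a k) N
    rw [h] at h'
    have h'' : ((N * (c * res d p g n a k / N) + res d p g n a (k + s) : ℕ) : ℤ) =
        ((c * res d p g n a k : ℕ) : ℤ) := congrArg Nat.cast h'
    push_cast at h''
    push_cast
    linarith
  have hterm : ∀ a k, η ^ s * (N : R) * ((coefA d p g n a k : R) * η ^ k) =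
      2 * (c : R) * η ^ s * (η ^ k * (res d p g n a k : R)) -
        2 * (η ^ (k + s) * (res d p g n a (k + s) : R)) +
        (N : R) * (1 - (c : R)) * η ^ s * η ^ k := fun a k => by
    have h := congrArg (Int.cast : ℤ → R) (hdiv a k)
    push_cast at h
    rw [coefA, ← hN, ← hc]
    push_cast
    rw [pow_add]
    linear_combination (2 * η ^ s * η ^ k) * h
  have hgeom : ∑ k ∈ Finset.range φ, η ^ k = 0 := by
    have h := geom_sum_mul η φ
    rw [hη, sub_self] at h
    exact (mul_eq_zero.mp h).resolve_right (sub_ne_zero.mpr hη1)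
  have hshift : ∀ a, ∑ k ∈ Finset.range φ, η ^ (k + s) * (res d p g n a (k + s) : R) =
      ∑ k ∈ Finset.range φ, η ^ k * (res d p g n a k : R) := fun a =>
    sum_range_shift (fun k => η ^ k * (res d p g n a k : R)) (φ := φ) (fun k => by
      simp only [res, pow_add, hη, hgφ, mul_one]) s
  have hperA : ∀ a, ∑ k ∈ Finset.range φ, η ^ s * (N : R) * ((coefA d p g n a k : R) * η ^ k) =
      2 * ((c : R) * η ^ s - 1) * ∑ k ∈ Finset.range φ, η ^ k * (res d p g n a k : R) := fun a => by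
    rw [Finset.sum_congr rfl fun k _ => hterm a k, Finset.sum_add_distrib, Finset.sum_sub_distrib,
      ← Finset.mul_sum, ← Finset.mul_sum, ← Finset.mul_sum, hshift a, hgeom]
    ring
  rw [stickSum, poly, eval_finsetSum, ← hφ]
  simp only [eval_mul, eval_C, eval_pow, eval_X, Finset.sum_mul, Finset.mul_sum]
  rw [Finset.sum_comm]
  refine Finset.sum_congr rfl fun a _ => ?_
  have h := congrArg (χ a * ·) (hperA a)
  simp only [Finset.mul_sum] at h
  refine Eq.trans (Finset.sum_congr rfl fun k _ => ?_)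
    (h.trans (Finset.sum_congr rfl fun k _ => ?_)) <;> ring

end FA.FerreroAbelian
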