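import Fermat.Agent.IwasawaMinus.Crossing
import Fermat.Agent.FerreroAbelian.Stickelberger

/-!
# A jump of the twisted branch sums

The fractions `r / (d p^(n+1))` are `val b / d + L_i(y)` modulo `1`, `L_i` integer combinations
of the free coordinates `y`. Across `val 1 / d + y_0 = 1/c` only the terms of `(1, 1)` and
`(-1, -1)` jump (`exists_sum_ne_zero`).
-/

set_option autoImplicit false
set_option linter.unusedSectionVars false
set_option linter.style.haveILetI false

noncomputable section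

open Polynomial
open FA.IwasawaMinus
open scoped Classical

namespace FA.FerreroAbelian

variable {p : ℕ} [hp : Fact p.Prime] {d g : ℕ} [NeZero d]

/-- `⌊c t⌋ - c ⌊t⌋`, which only depends on `t` modulo `1`. -/
def fl (c : ℕ) (t : ℝ) : ℤ := ⌊(c : ℝ) * t⌋ - (c : ℤ) * ⌊t⌋

theorem fl_add_int (c : ℕ) (t : ℝ) (q : ℤ) : fl c (t + q) = fl c t := by
  rw [fl, fl, Int.floor_add_intCast, mul_add,
    show (c : ℝ) * (q : ℝ) = (((c : ℤ) * q : ℤ) : ℝ) by push_cast; rfl, Int.floor_add_intCast]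
  ring

theorem fl_eq {c : ℕ} {t : ℝ} {k j : ℤ} (h1 : (k : ℝ) ≤ c * t) (h2 : (c : ℝ) * t < k + 1)
    (h3 : (j : ℝ) ≤ t) (h4 : t < j + 1) : fl c t = k - c * j := by
  rw [fl, Int.floor_eq_iff.2 ⟨h1, h2⟩, Int.floor_eq_iff.2 ⟨h3, h4⟩]

/-- The fraction of a residue. -/
theorem exists_int_fr (P : ℕ) [NeZero P] (b : ZMod d) (y : ZMod P) :
    ∃ z : ℤ, (fr d P b y : ℝ) / ((d * P : ℕ) : ℝ) + z = (b.val : ℝ) / d + (y.val : ℝ) / P := by
  refine ⟨(((d * y.val + P * b.val) / (d * P) : ℕ) : ℤ), ?_⟩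
  have hd0 : (d : ℝ) ≠ 0 := Nat.cast_ne_zero.2 (NeZero.ne d)
  have hP0 : (P : ℝ) ≠ 0 := Nat.cast_ne_zero.2 (NeZero.ne P)
  have h := congrArg (Nat.cast : ℕ → ℝ) (Nat.mod_add_div (d * y.val + P * b.val) (d * P))
  rw [fr]
  generalize (d * y.val + P * b.val) / (d * P) = q at h ⊢
  generalize (d * y.val + P * b.val) % (d * P) = r at h ⊢
  push_cast at h ⊢
  field_simp
  linear_combination h

/-- **The twisted branch sums do not all vanish.** -/
theorem exists_sum_ne_zero (hp2 : p ≠ 2) (hg : IsGen p g) {R : Type*} [CommRing R]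
    (h2 : (2 : R) ≠ 0) {w : R} (ψ : ZMod d → R) (hψ : ψ 1 = 1)
    (hodd : w ^ ((p - 1) / 2) * ψ (-1) = -1) {c : ℕ} (hc : 2 ≤ c) (hcd : (c : ZMod d) = 1) :
    ∃ (n : ℕ) (β : ZMod (p ^ (n + 1))), IsUnit β ∧ ∑ i ∈ Finset.range (p - 1), w ^ i *
      ∑ b, ψ b * ((c * fr d (p ^ (n + 1)) b (β * gzeta p g n ^ i) / (d * p ^ (n + 1)) : ℕ) : R)
        ≠ 0 := by
  have hp1 : 0 < p - 1 := Nat.sub_pos_of_lt hp.out.one_lt
  have hr : 0 < Nat.totient (p - 1) := Nat.totient_pos.mpr hp1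
  obtain ⟨h, hh⟩ : ∃ h, h = (p - 1) / 2 := ⟨_, rfl⟩
  rw [← hh] at hodd
  have hh0 : 0 < h := by
    have := hp.out.two_le
    omega
  have hhlt : h < p - 1 := by omega
  have hcR : (2 : ℝ) ≤ c := by exact_mod_cast hc
  have hdR : (0 : ℝ) < d := Nat.cast_pos.2 (NeZero.pos d)
  set j0 : Fin (Nat.totient (p - 1)) := ⟨0, hr⟩ with hj0
  set A : ℕ → Fin (Nat.totient (p - 1)) → ℤ := fun i j =>
    if i = 0 then (if j = j0 then 1 else 0) else if i = h then (if j = j0 then -1 else 0)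
      else expCoeff p i j with hA
  set L : ℕ → (Fin (Nat.totient (p - 1)) → ℝ) → ℝ := fun i y => ∑ j, (A i j : ℝ) * y j with hL
  have hL0 : ∀ y, L 0 y = y j0 := fun y => by
    simp only [hL, hA, if_true]
    rw [Finset.sum_eq_single j0 (fun j _ hj => by simp [hj])
      (fun e => absurd (Finset.mem_univ _) e)]
    simp
  have hLh : ∀ y, L h y = -y j0 := fun y => by
    simp only [hL, hA, if_neg hh0.ne', if_true]
    rw [Finset.sum_eq_single j0 (fun j _ hj => by simp [hj])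
      (fun e => absurd (Finset.mem_univ _) e)]
    simp
  -- the point of the crossing
  set α : ZMod d → ℝ := fun b => (b.val : ℝ) / d with hα
  set s := liouvilleNumber 2
  have hs : Transcendental ℤ s := transcendental_liouvilleNumber le_rfl
  set x₀ : Fin (Nat.totient (p - 1)) → ℝ :=
    fun j => if (j : ℕ) = 0 then (c : ℝ)⁻¹ - α 1 else s ^ (j : ℕ) with hx₀
  have hx00 : x₀ j0 = (c : ℝ)⁻¹ - α 1 := if_pos rfl
  set others := (((Finset.range (p - 1)) ×ˢ (Finset.univ : Finset (ZMod d))).erase (0, 1)).erase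
    (h, -1) with hothers
  have hnon : ∀ x ∈ others, ∀ m : ℤ, (c : ℝ) * (α x.2 + L x.1 x₀) ≠ m := by
    rintro ⟨i, b⟩ hx m e
    rw [hothers] at hx
    simp only [Finset.mem_erase, Finset.mem_product, Finset.mem_range, Finset.mem_univ, and_true,
      ne_eq, Prod.mk.injEq] at hx
    obtain ⟨hxh, hx0, hi⟩ := hx
    simp only [hα] at e hx00
    by_cases hi0 : i = 0
    · subst hi0
      rw [hL0, hx00] at e
      field_simp at e
      have e' : (c : ℤ) * ((b.val : ℤ) - (1 : ZMod d).val) = (d : ℤ) * (m - 1) := by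
        have : ((c * ((b.val : ℤ) - (1 : ZMod d).val) : ℤ) : ℝ) = ((d * (m - 1) : ℤ) : ℝ) := by
          push_cast
          linear_combination e
        exact_mod_cast this
      have e'' := congrArg (Int.cast : ℤ → ZMod d) e'
      push_cast at e''
      rw [hcd, ZMod.natCast_self, zero_mul, one_mul, ZMod.natCast_zmod_val,
        ZMod.natCast_zmod_val, sub_eq_zero] at e''
      exact hx0 ⟨rfl, e''⟩
    by_cases hih : i = h
    · subst hih
      rw [hLh, hx00] at e
      field_simp at e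
      have e' : (c : ℤ) * ((b.val : ℤ) + (1 : ZMod d).val) = (d : ℤ) * (m + 1) := by
        have : ((c * ((b.val : ℤ) + (1 : ZMod d).val) : ℤ) : ℝ) = ((d * (m + 1) : ℤ) : ℝ) := by
          push_cast
          linear_combination e
        exact_mod_cast this
      have e'' := congrArg (Int.cast : ℤ → ZMod d) e'
      push_cast at e''
      rw [hcd, ZMod.natCast_self, zero_mul, one_mul, ZMod.natCast_zmod_val,
        ZMod.natCast_zmod_val, add_eq_zero_iff_eq_neg] at e''
      exact hxh ⟨rfl, e''⟩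
    obtain ⟨j₀, hj₀, hE⟩ := exists_expCoeff_ne_zero hp2 hi hi0 (hh ▸ hih)
    set v₁ : ℤ := ((1 : ZMod d).val : ℤ) with hv₁
    set Q : ℤ[X] := ∑ j : Fin (Nat.totient (p - 1)), C (if (j : ℕ) = 0 then
      (c : ℤ) * b.val + expCoeff p i j * (d - c * v₁) - d * m
        else (c : ℤ) * d * expCoeff p i j) * X ^ (j : ℕ) with hQ
    have hQ0 : Q ≠ 0 := fun e0 => by
      have hq := congrArg (fun q => Polynomial.coeff q (j₀ : ℕ)) e0
      simp only [hQ, finsetSum_coeff, coeff_C_mul_X_pow, coeff_zero] at hq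
      rw [Finset.sum_eq_single j₀ (fun b _ hb => if_neg fun e => hb (Fin.ext e.symm))
        (fun h => absurd (Finset.mem_univ _) h), if_pos rfl, if_neg hj₀] at hq
      refine hE ((mul_eq_zero.mp hq).resolve_left (mul_ne_zero ?_ ?_))
      · exact_mod_cast (show c ≠ 0 by omega)
      · exact_mod_cast NeZero.ne d
    refine hs ⟨Q, hQ0, ?_⟩
    have hterm : ∀ j : Fin (Nat.totient (p - 1)),
        aeval s (C (if (j : ℕ) = 0 then (c : ℤ) * b.val + expCoeff p i j * (d - c * v₁) - d * m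
          else (c : ℤ) * d * expCoeff p i j) * X ^ (j : ℕ)) =
        (c : ℝ) * d * ((expCoeff p i j : ℝ) * x₀ j) +
          (if (j : ℕ) = 0 then (c : ℝ) * b.val - d * m else 0) := fun j => by
      rw [map_mul, aeval_C, algebraMap_int_eq, map_pow, aeval_X, eq_intCast]
      simp only [hx₀, hα, hv₁]
      split_ifs with hj
      · rw [hj, pow_zero, mul_one]
        push_cast
        field_simp
        ring
      · push_cast
        ring
    rw [hQ, map_sum, Finset.sum_congr rfl fun j _ => hterm j, Finset.sum_add_distrib,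
      ← Finset.mul_sum, Finset.sum_eq_single j0 (fun j _ hj => if_neg fun e => hj (Fin.ext e))
        (fun h => absurd (Finset.mem_univ _) h), if_pos rfl]
    have hLi : L i x₀ = ∑ j : Fin (Nat.totient (p - 1)), (expCoeff p i j : ℝ) * x₀ j := by
      simp only [hL, hA, if_neg hi0, if_neg hih]
    rw [hLi] at e
    field_simp at e
    linear_combination e
  -- no other term jumps nearby
  have hev : ∀ᶠ y in nhds x₀, ∀ x ∈ others,
      fl c (α x.2 + L x.1 y) = fl c (α x.2 + L x.1 x₀) := by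
    refine (Filter.eventually_all_finset _).mpr fun x hx => ?_
    have hfloor : ∀ (F : (Fin (Nat.totient (p - 1)) → ℝ) → ℝ), Continuous F →
        (∀ m : ℤ, F x₀ ≠ m) → ∀ᶠ y in nhds x₀, ⌊F y⌋ = ⌊F x₀⌋ := fun F hF hne => by
      filter_upwards [hF.continuousAt.eventually (Ioo_mem_nhds
        ((Int.floor_le _).lt_of_ne fun e => hne _ e.symm) (Int.lt_floor_add_one _))] with y hy
      exact Int.floor_eq_iff.mpr ⟨hy.1.le, hy.2⟩
    have hcont : Continuous fun y => α x.2 + L x.1 y := by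
      simp only [hL]
      exact continuous_const.add
        (continuous_finsetSum _ fun j _ => continuous_const.mul (continuous_apply j))
    filter_upwards [hfloor (fun y => (c : ℝ) * (α x.2 + L x.1 y)) (continuous_const.mul hcont)
      (hnon x hx), hfloor _ hcont fun m e => hnon x hx (c * m) (by rw [e]; push_cast; rfl)]
      with y h1 h2
    rw [fl, fl, h1, h2]
  obtain ⟨ρ, hρ, hball⟩ := Metric.eventually_nhds_iff.mp hev
  set ε := min (ρ / 3) (2 * (c : ℝ))⁻¹ with hεdef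
  have hε : 0 < ε := lt_min (by positivity) (by positivity)
  have hερ : 2 * ε < ρ := by linarith [min_le_left (ρ / 3) (2 * (c : ℝ))⁻¹]
  have hεc : 2 * ε ≤ (c : ℝ)⁻¹ := by
    have h1 : ε ≤ (2 * (c : ℝ))⁻¹ := min_le_right _ _
    rw [mul_inv] at h1
    linarith
  obtain ⟨K, hK⟩ := exists_nat_gt ((Nat.totient (p - 1) : ℝ) / (4 * ε ^ 2))
  rw [div_lt_iff₀' (by positivity)] at hK
  obtain ⟨n, hn⟩ := (eventually_injective hg K).exists
  haveI : NeZero (p ^ (n + 1)) := ⟨pow_ne_zero _ hp.out.ne_zero⟩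
  refine ⟨n, ?_⟩
  by_contra! hall
  -- a unit on each side of the crossing
  have hside : ∀ σ : ℝ, (σ = 1 ∨ σ = -1) → ∃ (β : ZMod (p ^ (n + 1)))
      (y : Fin (Nat.totient (p - 1)) → ℝ), IsUnit β ∧ dist y x₀ < ρ ∧
        |α 1 + y j0 - ((c : ℝ)⁻¹ + σ * ε)| < ε ∧ ∀ i < p - 1, ∀ b,
        ((c * fr d (p ^ (n + 1)) b (β * gzeta p g n ^ i) / (d * p ^ (n + 1)) : ℕ) : ℤ) =
          fl c (α b + L i y) := fun σ hσ => by
    obtain ⟨b₀, hb₀⟩ := exists_near
      (fun j : Fin (Nat.totient (p - 1)) => gzeta p g n ^ (j : ℕ)) (p : ZMod (p ^ (n + 1)))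
      (fun j => if (j : ℕ) = 0 then x₀ j + σ * ε else x₀ j) hε hK hn
    choose m hm using hb₀
    refine ⟨1 + (p : ZMod (p ^ (n + 1))) * b₀, fun j => (((1 + (p : ZMod (p ^ (n + 1))) * b₀) *
      gzeta p g n ^ (j : ℕ)).val : ℝ) / (p ^ (n + 1) : ℕ) + m j, ?_, ?_, ?_, fun i hi b => ?_⟩
    · refine isUnit_of_castHom_ne_zero _ ?_
      rw [map_add, map_mul, map_natCast, map_one, ZMod.natCast_self, zero_mul, add_zero]
      intro e
      exact one_ne_zero e
    · refine (dist_pi_lt_iff hρ).mpr fun j => ?_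
      rw [Real.dist_eq]
      have hj' := hm j
      by_cases hj : (j : ℕ) = 0
      · simp only [if_pos hj] at hj'
        rw [abs_lt] at hj' ⊢
        rcases hσ with rfl | rfl <;> constructor <;> linarith
      · simp only [if_neg hj] at hj'
        linarith
    · have hj' := hm j0
      simp only [hj0, if_true] at hj' ⊢
      rw [abs_lt] at hj' ⊢
      rw [← hj0, hx00] at hj'
      constructor <;> linarith
    · haveI : NeZero (d * p ^ (n + 1)) := ⟨Nat.mul_ne_zero (NeZero.ne d) (NeZero.ne _)⟩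
      have hcomb : gzeta p g n ^ i =
          ∑ j : Fin (Nat.totient (p - 1)),
            (A i j : ZMod (p ^ (n + 1))) * gzeta p g n ^ (j : ℕ) := by
        simp only [hA]
        split_ifs with hi0 hih
        · rw [Finset.sum_eq_single j0 (fun j _ hj => by simp [hj])
            (fun e => absurd (Finset.mem_univ _) e), hi0]
          simp [hj0]
        · rw [Finset.sum_eq_single j0 (fun j _ hj => by simp [hj])
            (fun e => absurd (Finset.mem_univ _) e), hih, hh, gzeta_pow_half hp2 hg]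
          simp [hj0]
        · exact pow_eq_sum_expCoeff (aeval_gzeta_cyclotomic hg n) i
      obtain ⟨z, hz⟩ := exists_int_of_combination (A i)
        (fun j : Fin (Nat.totient (p - 1)) => (1 + (p : ZMod (p ^ (n + 1))) * b₀) *
          gzeta p g n ^ (j : ℕ)) m
        (x := (1 + (p : ZMod (p ^ (n + 1))) * b₀) * gzeta p g n ^ i)
        (by rw [hcomb, Finset.mul_sum]; exact Finset.sum_congr rfl fun j _ => by ring)
      obtain ⟨z', hz'⟩ := exists_int_fr (p ^ (n + 1)) b
        ((1 + (p : ZMod (p ^ (n + 1))) * b₀) * gzeta p g n ^ i)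
      refine div_eq_floor c (fr_lt _ _ _) ⟨z' + z, ?_⟩
      simp only [hL, hα]
      rw [← hz, Int.cast_add, ← add_assoc, hz', add_assoc]
  obtain ⟨β, y, hβ, hy, hv, hT⟩ := hside 1 (Or.inl rfl)
  obtain ⟨β', y', hβ', hy', hv', hT'⟩ := hside (-1) (Or.inr rfl)
  rw [abs_lt] at hv hv'
  obtain ⟨q, hq⟩ : ∃ q : ℤ, α (-1) = -α 1 + q := by
    obtain ⟨q, hq⟩ := (ZMod.natCast_eq_zero_iff ((-1 : ZMod d).val + (1 : ZMod d).val) d).1
      (by rw [Nat.cast_add, ZMod.natCast_zmod_val, ZMod.natCast_zmod_val, neg_add_cancel])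
    refine ⟨q, ?_⟩
    simp only [hα]
    have hq' := congrArg (Nat.cast : ℕ → ℝ) hq
    push_cast at hq' ⊢
    field_simp
    linear_combination hq'
  have hci : (c : ℝ) * (c : ℝ)⁻¹ = 1 := mul_inv_cancel₀ (by positivity)
  have hci2 : (c : ℝ)⁻¹ ≤ 2⁻¹ := inv_anti₀ two_pos hcR
  have hswap : ∀ y : Fin (Nat.totient (p - 1)) → ℝ,
      fl c (α (-1) + L h y) = fl c (-(α 1 + y j0)) := fun y => by
    rw [hLh, hq, show -α 1 + (q : ℝ) + -y j0 = -(α 1 + y j0) + q by ring, fl_add_int]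
  have hpos : (0 : ℝ) < c := by linarith
  have hu1 : 1 < (c : ℝ) * (α 1 + y j0) ∧ (c : ℝ) * (α 1 + y j0) < 2 := by
    have e1 := mul_lt_mul_of_pos_left (show (c : ℝ)⁻¹ < α 1 + y j0 by linarith) hpos
    have e2 := mul_lt_mul_of_pos_left (show α 1 + y j0 < 2 * (c : ℝ)⁻¹ by linarith) hpos
    rw [hci] at e1
    rw [mul_left_comm, hci] at e2
    exact ⟨e1, by linarith⟩
  have hu0 : 0 < (c : ℝ) * (α 1 + y' j0) ∧ (c : ℝ) * (α 1 + y' j0) < 1 := by
    have e1 := mul_lt_mul_of_pos_left (show 0 < α 1 + y' j0 by linarith) hpos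
    have e2 := mul_lt_mul_of_pos_left (show α 1 + y' j0 < (c : ℝ)⁻¹ by linarith) hpos
    rw [mul_zero] at e1
    rw [hci] at e2
    exact ⟨e1, e2⟩
  have hB1 : fl c (α 1 + y j0) = 1 := by
    refine (fl_eq (k := 1) (j := 0) ?_ ?_ ?_ ?_).trans (by ring) <;> push_cast <;> linarith
  have hB0 : fl c (α 1 + y' j0) = 0 := by
    refine (fl_eq (k := 0) (j := 0) ?_ ?_ ?_ ?_).trans (by ring) <;> push_cast <;> linarith
  have hA1 : fl c (-(α 1 + y j0)) = (c : ℤ) - 2 := by
    refine (fl_eq (k := -2) (j := -1) ?_ ?_ ?_ ?_).trans (by ring) <;> push_cast <;> linarith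
  have hA0 : fl c (-(α 1 + y' j0)) = (c : ℤ) - 1 := by
    refine (fl_eq (k := -1) (j := -1) ?_ ?_ ?_ ?_).trans (by ring) <;> push_cast <;> linarith
  have hsum : ∀ (β : ZMod (p ^ (n + 1))) (y : Fin (Nat.totient (p - 1)) → ℝ),
      (∀ i < p - 1, ∀ b, ((c * fr d (p ^ (n + 1)) b (β * gzeta p g n ^ i) /
        (d * p ^ (n + 1)) : ℕ) : ℤ) = fl c (α b + L i y)) →
      ∑ i ∈ Finset.range (p - 1), w ^ i * ∑ b, ψ b *
        ((c * fr d (p ^ (n + 1)) b (β * gzeta p g n ^ i) / (d * p ^ (n + 1)) : ℕ) : R) =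
      ∑ x ∈ Finset.range (p - 1) ×ˢ (Finset.univ : Finset (ZMod d)),
        w ^ x.1 * ψ x.2 * (fl c (α x.2 + L x.1 y) : R) := fun β y hT => by
    rw [Finset.sum_product]
    refine Finset.sum_congr rfl fun i hi => ?_
    rw [Finset.mul_sum]
    refine Finset.sum_congr rfl fun b _ => ?_
    rw [← hT i (Finset.mem_range.1 hi) b, Int.cast_natCast, mul_assoc]
  have hkey : (∑ x ∈ Finset.range (p - 1) ×ˢ (Finset.univ : Finset (ZMod d)),
        w ^ x.1 * ψ x.2 * (fl c (α x.2 + L x.1 y) : R)) -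
      ∑ x ∈ Finset.range (p - 1) ×ˢ (Finset.univ : Finset (ZMod d)),
        w ^ x.1 * ψ x.2 * (fl c (α x.2 + L x.1 y') : R) = 2 := by
    have hm0 : ((0, 1) : ℕ × ZMod d) ∈ Finset.range (p - 1) ×ˢ (Finset.univ : Finset (ZMod d)) :=
      Finset.mem_product.2 ⟨Finset.mem_range.2 hp1, Finset.mem_univ _⟩
    have hmh : ((h, -1) : ℕ × ZMod d) ∈
        (Finset.range (p - 1) ×ˢ (Finset.univ : Finset (ZMod d))).erase (0, 1) :=
      Finset.mem_erase.2 ⟨fun e => hh0.ne' (congrArg Prod.fst e),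
        Finset.mem_product.2 ⟨Finset.mem_range.2 hhlt, Finset.mem_univ _⟩⟩
    rw [← Finset.sum_sub_distrib, ← Finset.add_sum_erase _ _ hm0,
      ← Finset.add_sum_erase _ _ hmh, ← hothers, Finset.sum_eq_zero fun x hx => ?_, add_zero]
    · simp only [hL0, hswap, hB1, hB0, hA1, hA0, pow_zero, hψ, hodd]
      push_cast
      ring
    · rw [hball hy x hx, hball hy' x hx, sub_self]
  rw [← hsum β y hT, ← hsum β' y' hT', hall β hβ, hall β' hβ', sub_self] at hkey
  exact h2 hkey.symm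

end FA.FerreroAbelian
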