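import Fermat.Agent.FerreroAbelian.MinusGrowth
import Fermat.Agent.FerreroWashington.MinusRank
import Fermat.Agent.IwasawaGrowth.MuCriterion
import Fermat.Agent.MuExtensions.Compositum

/-!
# `μ = 0` for `ℚ(ζ_{f p^(n+1)})`

For an odd prime `p` not dividing `f` the fields `ℚ(ζ_{f p^(n+1)})` form a `ℤ_p`-extension of
`ℚ(ζ_{f p})`; the relative class number, reflection and Iwasawa's criterion give bounded `p`-ranks
(`exists_rank_le_cyclotomic`).
-/

set_option autoImplicit false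
set_option linter.unusedSectionVars false
set_option linter.style.haveILetI false

noncomputable section

open NumberField
open FA.IwasawaGrowth
open FA.MuExtensions (cycOver)

namespace FA.FerreroAbelian

variable {p : ℕ} [hp : Fact p.Prime] {f : ℕ} [NeZero f]

variable (p f) in
/-- `ℚ(ζ_{f p})`. -/
abbrev BaseF : Type := CyclotomicField (f * p ^ (0 + 1)) ℚ

instance isCyclotomic_baseF : IsCyclotomicExtension {f * p ^ (0 + 1)} ℚ (BaseF p f) := by
  haveI : NeZero ((f * p ^ (0 + 1) : ℕ) : ℚ) := ⟨Nat.cast_ne_zero.2 (NeZero.ne _)⟩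
  convert CyclotomicField.isCyclotomicExtension (f * p ^ (0 + 1)) ℚ
  all_goals rfl

instance numberField_cycOver {K : Type} [Field K] [NumberField K] (n : ℕ) :
    NumberField (cycOver K p n) :=
  NumberField.of_module_finite K _

/-- Adjoining `p`-power roots of unity to a field containing `ℚ(ζ_{f p})`. -/
theorem isCyclotomic_cycOver_base (hf : ¬ p ∣ f) (n : ℕ) :
    IsCyclotomicExtension {f * p ^ (n + 1)} ℚ (cycOver (BaseF p f) p n) := by
  haveI hu : IsCyclotomicExtension ({f * p ^ (0 + 1)} ∪ {p ^ (n + 1)}) ℚ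
      (cycOver (BaseF p f) p n) :=
    IsCyclotomicExtension.trans _ _ ℚ (BaseF p f) (cycOver (BaseF p f) p n)
      (algebraMap (BaseF p f) _).injective
  obtain ⟨hroot, hgen⟩ := (isCyclotomicExtension_iff _ ℚ _).1 hu
  obtain ⟨z, hz⟩ := hroot (Or.inl rfl : f * p ^ (0 + 1) ∈ _) (NeZero.ne _)
  obtain ⟨y, hy⟩ := hroot (Or.inr rfl : p ^ (n + 1) ∈ _) (pow_ne_zero _ hp.out.ne_zero)
  have hzf : IsPrimitiveRoot (z ^ p ^ (0 + 1)) f :=
    hz.pow (Nat.pos_of_ne_zero (NeZero.ne _)) (mul_comm _ _)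
  refine (isCyclotomicExtension_iff _ ℚ _).2 ⟨fun {m} hm _ => ?_, fun x => ?_⟩
  · rw [Set.mem_singleton_iff.1 hm]
    refine ⟨z ^ p ^ (0 + 1) * y, IsPrimitiveRoot.iff_orderOf.2 ?_⟩
    rw [(Commute.all _ _).orderOf_mul_eq_mul_orderOf_of_coprime, ← hzf.eq_orderOf, ← hy.eq_orderOf]
    rw [← hzf.eq_orderOf, ← hy.eq_orderOf]
    exact (Nat.coprime_comm.1 (hp.out.coprime_iff_not_dvd.2 hf)).pow_right _
  · refine Algebra.adjoin_mono ?_ (hgen x)
    rintro b ⟨m, hm, hm0, hb⟩
    refine ⟨_, rfl, NeZero.ne _, ?_⟩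
    have hdvd : m ∣ f * p ^ (n + 1) := by
      rcases hm with hm | hm <;> rw [Set.mem_singleton_iff.1 hm]
      · exact mul_dvd_mul_left _ (pow_dvd_pow p (Nat.succ_le_succ n.zero_le))
      · exact dvd_mul_left _ _
    obtain ⟨c, hc⟩ := hdvd
    rw [hc, pow_mul, hb, one_pow]

/-- The degree. -/
theorem finrank_cycOver_base (hf : ¬ p ∣ f) (n : ℕ) :
    Module.finrank (BaseF p f) (cycOver (BaseF p f) p n) = p ^ n := by
  haveI := isCyclotomic_cycOver_base hf n
  have hcop : f.Coprime p := Nat.coprime_comm.1 (hp.out.coprime_iff_not_dvd.2 hf)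
  have h := Module.finrank_mul_finrank ℚ (BaseF p f) (cycOver (BaseF p f) p n)
  rw [IsCyclotomicExtension.Rat.finrank (f * p ^ (0 + 1)) (K := BaseF p f),
    IsCyclotomicExtension.Rat.finrank (f * p ^ (n + 1)) (K := cycOver (BaseF p f) p n),
    Nat.totient_mul (hcop.pow_right _), Nat.totient_mul (hcop.pow_right _),
    Nat.totient_prime_pow_succ hp.out, Nat.totient_prime_pow_succ hp.out, pow_zero, one_mul,
    mul_comm (p ^ n), ← mul_assoc] at h
  exact Nat.eq_of_mul_eq_mul_left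
    (Nat.mul_pos (Nat.totient_pos.2 (NeZero.pos f)) (Nat.sub_pos_of_lt hp.out.one_lt)) h

/-- **The tower.** -/
def cycTowerF (hp2 : p ≠ 2) (hf : ¬ p ∣ f) : ZpTower p (BaseF p f) where
  field := cycOver (BaseF p f) p
  isGalois _ := inferInstance
  isCyclic := FA.MuExtensions.isCyclic_cycOver hp2
  finrank_eq := finrank_cycOver_base hf
  mono := FA.MuExtensions.cycOver_mono

/-- **Bounded ranks along the tower.** -/
theorem exists_rank_le_tower (hp2 : p ≠ 2) (hf : ¬ p ∣ f) :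
    ∃ C, ∀ n, Nat.card (powMonoidHom p : ClassGroup (𝓞 (cycOver (BaseF p f) p n)) →*
      ClassGroup (𝓞 (cycOver (BaseF p f) p n))).ker ≤ C := by
  obtain ⟨a, b, n₀, h⟩ := exists_minus_le (f := f) hp2 hf
  obtain ⟨-, -, -, -, hC⟩ := (cycTowerF (f := f) hp2 hf).mu_eq_zero_of_le
    (a := 2 * a) (b := 2 * b + 1) (n₁ := n₀) fun n hn => by
      show Nat.card (powMonoidHom p : ClassGroup (𝓞 (cycOver (BaseF p f) p n)) →*
        ClassGroup (𝓞 (cycOver (BaseF p f) p n))).ker ≤ _
      haveI := isCyclotomic_cycOver_base hf n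
      haveI := isCMField_level (f := f) hp2 n (cycOver (BaseF p f) p n)
      haveI : IsGalois ℚ (cycOver (BaseF p f) p n) :=
        IsCyclotomicExtension.isGalois {f * p ^ (n + 1)} ℚ _
      have hζ := (IsCyclotomicExtension.zeta_spec (f * p ^ (n + 1)) ℚ
        (cycOver (BaseF p f) p n)).pow (Nat.pos_of_ne_zero (NeZero.ne _))
        (show f * p ^ (n + 1) = f * p ^ n * p by rw [pow_succ]; ring)
      refine (FA.FerreroWashington.card_torsion_le_relClassNumber _ hp2 hζ
        (h n hn (cycOver (BaseF p f) p n))).trans (le_of_eq ?_)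
      ring_nf
  exact hC

/-- Isomorphic fields. -/
theorem card_torsion_eq_of_ringEquiv {F F' : Type} [Field F] [NumberField F] [Field F']
    [NumberField F'] (e : F ≃+* F') (q : ℕ) :
    Nat.card (powMonoidHom q : ClassGroup (𝓞 F) →* ClassGroup (𝓞 F)).ker =
      Nat.card (powMonoidHom q : ClassGroup (𝓞 F') →* ClassGroup (𝓞 F')).ker := by
  let u := ClassGroup.mulEquiv (RingOfIntegers.mapRingEquiv e)
  refine Nat.card_congr (u.toEquiv.subtypeEquiv fun x => ?_)
  show x ^ q = 1 ↔ u x ^ q = 1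
  rw [← map_pow, map_eq_one_iff u u.injective]

/-- **Bounded ranks for every `ℚ(ζ_{f p^(n+1)})`.** -/
theorem exists_rank_le_cyclotomic (hp2 : p ≠ 2) (hf : ¬ p ∣ f) :
    ∃ C, ∀ n, ∀ (F : Type) [Field F] [NumberField F] [IsCyclotomicExtension {f * p ^ (n + 1)} ℚ F],
      Nat.card (powMonoidHom p : ClassGroup (𝓞 F) →* ClassGroup (𝓞 F)).ker ≤ C := by
  obtain ⟨C, hC⟩ := exists_rank_le_tower (f := f) hp2 hf
  refine ⟨C, fun n F _ _ _ => ?_⟩
  haveI := isCyclotomic_cycOver_base (p := p) hf n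
  exact (card_torsion_eq_of_ringEquiv (IsCyclotomicExtension.algEquiv {f * p ^ (n + 1)} ℚ F
    (cycOver (BaseF p f) p n)).toRingEquiv p).trans_le (hC n)

end FA.FerreroAbelian
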