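import Fermat.Agent.MuExtensions.Compositum

/-!
# The cyclotomic `ℤ_p`-extension of a number field

For odd `p` the level `j` of the cyclotomic `ℤ_p`-extension of a number field `K` lies in
`K(ζ_{p^(j+D+1)})` with `D` fixed (`exists_shift`); such a tower exists (`exists_cyclotomicTower`).
-/

set_option autoImplicit false
set_option linter.unusedSectionVars false
set_option linter.style.haveILetI false

noncomputable section

open FA.IwasawaGrowth
open FA.MuExtensions (cycOver cycOver_mono exists_primitive isCyclic_cycOver)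

namespace FA.FerreroAbelian

variable {K : Type} [Field K] [NumberField K] {p : ℕ} [hp : Fact p.Prime]

local notation "Ω" => AlgebraicClosure K

/-- Inside a cyclic extension subfields are ordered by degree. -/
theorem le_of_finrank_dvd {A B L : IntermediateField K Ω} [FiniteDimensional K L] [IsGalois K L]
    [Normal K A] [Normal K B] [IsCyclic (L ≃ₐ[K] L)] (hA : A ≤ L) (hB : B ≤ L)
    (h : Module.finrank K A ∣ Module.finrank K B) : A ≤ B := by
  have hcard : ∀ {E : IntermediateField K Ω} [Normal K E] (hE : E ≤ L),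
      Nat.card (sub hE) * Module.finrank K E = Module.finrank K L := fun {E} _ hE => by
    haveI : FiniteDimensional K E :=
      .of_injective (IntermediateField.inclusion hE).toLinearMap
        (IntermediateField.inclusion hE).injective
    haveI : IsGalois K E := ⟨⟩
    rw [← IsGalois.card_aut_eq_finrank K E, ← IsGalois.card_aut_eq_finrank K L,
      ← Subgroup.card_mul_index (sub hE), ← ker_res, Subgroup.index_ker,
      MonoidHom.range_eq_top.2 (res_surjective hE), Subgroup.card_top]
  refine le_of_sub_le hA hB (le_of_card_dvd ?_)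
  obtain ⟨c, hc⟩ := h
  refine ⟨c, Nat.eq_of_mul_eq_mul_right (m := Module.finrank K A) ?_ ?_⟩
  · refine Nat.pos_of_ne_zero fun e => ?_
    have h1 := hcard hA
    rw [e, mul_zero] at h1
    exact Module.finrank_pos.ne h1
  · rw [hcard hA, ← hcard hB, hc]
    ring

variable (p) in
/-- The degrees of the fields `K(ζ_{p^(n+1)})` have large `p`-part. -/
theorem exists_pow_dvd_finrank :
    ∃ D, ∀ j, p ^ j ∣ Module.finrank K (cycOver K p (j + D)) := by
  obtain ⟨D, hD⟩ : ∃ D, Module.finrank ℚ K * (p - 1) ≤ p ^ D :=
    ⟨_, (Nat.lt_pow_self hp.out.one_lt).le⟩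
  refine ⟨D, fun j => ?_⟩
  set m := j + D
  haveI : NeZero (p ^ (m + 1)) := ⟨pow_ne_zero _ hp.out.ne_zero⟩
  obtain ⟨z, hz⟩ := exists_primitive (K := K) (p := p) m
  haveI : Module.Finite ℚ (cycOver K p m) := Module.Finite.trans K _
  have h1 := minpoly.natDegree_le (A := ℚ) z
  rw [← Polynomial.cyclotomic_eq_minpoly_rat hz (pow_pos hp.out.pos _),
    Polynomial.natDegree_cyclotomic, ← Module.finrank_mul_finrank ℚ K (cycOver K p m),
    Nat.totient_prime_pow_succ hp.out] at h1
  have h2 : Module.finrank K (cycOver K p m) ∣ (p - 1) * p ^ m := by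
    rw [← IsGalois.card_aut_eq_finrank, mul_comm, ← Nat.totient_prime_pow_succ hp.out,
      ← ZMod.card_units_eq_totient, ← Nat.card_eq_fintype_card]
    exact Subgroup.card_dvd_of_injective _ (IsPrimitiveRoot.autToPow_injective K
      (IsCyclotomicExtension.zeta_spec (p ^ (m + 1)) K (cycOver K p m)))
  obtain ⟨d, t, hd, ht, hdt⟩ := Nat.dvd_mul.1 h2
  obtain ⟨b, -, rfl⟩ := (Nat.dvd_prime_pow hp.out).1 ht
  have hd' : d ≤ p - 1 := Nat.le_of_dvd (Nat.sub_pos_of_lt hp.out.one_lt) hd
  have h3 : p ^ (j + D) ≤ p ^ (D + b) := by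
    refine (Nat.le_mul_of_pos_right _ (Nat.sub_pos_of_lt hp.out.one_lt)).trans (h1.trans ?_)
    rw [← hdt, ← mul_assoc, pow_add]
    exact Nat.mul_le_mul_right _ ((Nat.mul_le_mul_left _ hd').trans hD)
  rw [← hdt]
  exact (pow_dvd_pow p (by have := (Nat.pow_le_pow_iff_right hp.out.one_lt).1 h3; omega)).mul_left _

/-- A level of the cyclotomic `ℤ_p`-extension. -/
theorem exists_level (hp2 : p ≠ 2) : ∃ D, ∀ j, ∃ L : IntermediateField K Ω,
    L ≤ cycOver K p (j + D) ∧ IsGalois K L ∧ IsCyclic (L ≃ₐ[K] L) ∧
      Module.finrank K L = p ^ j := by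
  obtain ⟨D, hD⟩ := exists_pow_dvd_finrank (K := K) p
  refine ⟨D, fun j => ?_⟩
  set C := cycOver K p (j + D)
  haveI hcyc := isCyclic_cycOver (K := K) (p := p) hp2 (j + D)
  obtain ⟨σ, hσ⟩ := IsCyclic.exists_generator (α := C ≃ₐ[K] C)
  set H := Subgroup.zpowers (σ ^ p ^ j)
  haveI : H.Normal := ⟨fun x hx g => by
    rwa [@mul_comm' _ _ IsCyclic.isMulCommutative g x, mul_inv_cancel_right]⟩
  have hcard : Nat.card (C ≃ₐ[K] C) = Module.finrank K C := IsGalois.card_aut_eq_finrank K C
  have hord : orderOf σ = Module.finrank K C := by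
    rw [orderOf_eq_card_of_forall_mem_zpowers hσ, hcard]
  have hHcard : Nat.card H = Module.finrank K C / p ^ j := by
    rw [Nat.card_zpowers, orderOf_pow' _ (pow_ne_zero _ hp.out.ne_zero), hord,
      Nat.gcd_eq_right (hD j)]
  haveI : IsGalois K (IntermediateField.fixedField H) := IsGalois.of_fixedField_normal_subgroup H
  let e := IntermediateField.liftAlgEquiv (IntermediateField.fixedField H)
  haveI : IsGalois K (IntermediateField.lift (IntermediateField.fixedField H)) :=
    IsGalois.of_algEquiv e
  refine ⟨IntermediateField.lift (IntermediateField.fixedField H), IntermediateField.lift_le _,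
    inferInstance, ?_, ?_⟩
  · exact isCyclic_of_surjective _ (res_surjective (IntermediateField.lift_le
      (IntermediateField.fixedField H)))
  · rw [← e.toLinearEquiv.finrank_eq]
    have h1 := Module.finrank_mul_finrank K (IntermediateField.fixedField H) C
    rw [IntermediateField.finrank_fixedField_eq_card, hHcard] at h1
    refine Nat.eq_of_mul_eq_mul_right (Nat.div_pos (Nat.le_of_dvd Module.finrank_pos (hD j))
      (pow_pos hp.out.pos _)) (h1.trans (Nat.mul_div_cancel' (hD j)).symm)

variable (K p) in
/-- The tower lies in the fields of `p`-power roots of unity. -/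
def IsCyclotomicTower (T : ZpTower p K) : Prop := ∀ j, ∃ m, T.field j ≤ cycOver K p m

/-- **The shift is bounded.** -/
theorem exists_shift (hp2 : p ≠ 2) :
    ∃ D, ∀ T : ZpTower p K, IsCyclotomicTower K p T → ∀ j, T.field j ≤ cycOver K p (j + D) := by
  obtain ⟨D, hD⟩ := exists_level (K := K) (p := p) hp2
  refine ⟨D, fun T hT j => ?_⟩
  obtain ⟨m, hm⟩ := hT j
  obtain ⟨L, hL, hLgal, -, hLdeg⟩ := hD j
  haveI := T.isGalois j
  haveI := hLgal
  haveI := isCyclic_cycOver (K := K) (p := p) hp2 (max m (j + D))
  refine le_trans ?_ hL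
  exact le_of_finrank_dvd (hm.trans (cycOver_mono (le_max_left _ _)))
    (hL.trans (cycOver_mono (le_max_right _ _))) (by rw [hLdeg, T.finrank_eq])

/-- **The cyclotomic `ℤ_p`-extension exists.** -/
theorem exists_cyclotomicTower (hp2 : p ≠ 2) : ∃ T : ZpTower p K, IsCyclotomicTower K p T := by
  obtain ⟨D, hD⟩ := exists_level (K := K) (p := p) hp2
  choose L hL hgal hcyc hdeg using hD
  exact ⟨{ field := L
           isGalois := hgal
           isCyclic := hcyc
           finrank_eq := hdeg
           mono := fun i j h => by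
             haveI := hgal i
             haveI := hgal j
             haveI := isCyclic_cycOver (K := K) (p := p) hp2 (j + D)
             exact le_of_finrank_dvd ((hL i).trans (cycOver_mono (Nat.add_le_add_right h D))) (hL j)
               (by rw [hdeg, hdeg]; exact pow_dvd_pow p h) },
    fun j => ⟨j + D, hL j⟩⟩

end FA.FerreroAbelian
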