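import Fermat.Agent.IwasawaGrowth.MuCriterion

/-!
# `p`-ranks of subfields

For finite Galois extensions `A ≤ B` of `K` inside an algebraic closure the restriction of the
`p`-class fields has an image of index dividing `[B : A]`, so
`|Cl(A)[p]| ≤ [B : A] |Cl(B)[p]|` (`card_torsion_le_of_le`).
-/

set_option autoImplicit false
set_option linter.unusedSectionVars false
set_option linter.style.haveILetI false

noncomputable section

open NumberField
open FA.IwasawaGrowth

namespace FA.FerreroAbelian

/-- Killed by `p` and modulo `p`. -/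
theorem card_ker_pow_eq_index {G : Type*} [CommGroup G] [Finite G] (p : ℕ) :
    Nat.card (powMonoidHom p : G →* G).ker = (powMonoidHom p : G →* G).range.index := by
  have h1 := Subgroup.card_mul_index (powMonoidHom p : G →* G).ker
  rw [Subgroup.index_ker] at h1
  have h2 := Subgroup.card_mul_index (powMonoidHom p : G →* G).range
  rw [← h1, mul_comm] at h2
  exact (Nat.eq_of_mul_eq_mul_right Nat.card_pos h2).symm

/-- A homomorphism with small cokernel. -/
theorem card_torsion_le_of_index {X Y : Type*} [CommGroup X] [CommGroup Y] [Finite X] [Finite Y]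
    (p : ℕ) (f : X →* Y) {r : ℕ} (hr : f.range.index ≤ r) :
    Nat.card (powMonoidHom p : Y →* Y).ker ≤ r * Nat.card (powMonoidHom p : X →* X).ker := by
  rw [card_ker_pow_eq_index, card_ker_pow_eq_index]
  have hle : ((powMonoidHom p : X →* X).range).map f ≤ (powMonoidHom p : Y →* Y).range := by
    rintro _ ⟨_, ⟨x, rfl⟩, rfl⟩
    exact ⟨f x, (map_pow f x p).symm⟩
  refine (Nat.le_of_dvd (Nat.pos_of_ne_zero Subgroup.index_ne_zero_of_finite)
    (Subgroup.index_dvd_of_le hle)).trans ?_
  rw [Subgroup.index_map, mul_comm]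
  exact Nat.mul_le_mul hr (Nat.le_of_dvd (Nat.pos_of_ne_zero Subgroup.index_ne_zero_of_finite)
    (Subgroup.index_dvd_of_le le_sup_left))

variable {K : Type} [Field K] [NumberField K] {p : ℕ} [hp : Fact p.Prime]

attribute [local instance] numberField_sub

/-- **The `p`-rank of a subfield.** -/
theorem card_torsion_le_of_le {A B : IntermediateField K (AlgebraicClosure K)}
    [FiniteDimensional K A] [IsGalois K A] [FiniteDimensional K B] [IsGalois K B] (hAB : A ≤ B)
    {r : ℕ} (hr : Module.finrank K A * r = Module.finrank K B) :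
    Nat.card (powMonoidHom p : ClassGroup (𝓞 A) →* ClassGroup (𝓞 A)).ker ≤
      r * Nat.card (powMonoidHom p : ClassGroup (𝓞 B) →* ClassGroup (𝓞 B)).ker := by
  obtain ⟨LA, _, _, hA⟩ := exists_isClassField (p := p) A
  obtain ⟨LB, _, _, hB⟩ := exists_isClassField (p := p) B
  have hL : LA ≤ LB := hA.mono hB hAB
  have hcomm : ∀ {E L : IntermediateField K (AlgebraicClosure K)} [FiniteDimensional K E]
      [FiniteDimensional K L] [IsGalois K L] (h : IsClassField p E L) (a b : sub h.le),
      a * b = b * a := fun {E L} _ _ _ h a b => Subtype.ext (by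
    have h1 := Subgroup.mem_bot.1 (h.good.comm _ a.2 _ b.2)
    rwa [mul_inv_eq_one, mul_inv_eq_iff_eq_mul] at h1)
  letI : CommGroup (sub hA.le) := { (inferInstance : Group (sub hA.le)) with mul_comm := hcomm hA }
  letI : CommGroup (sub hB.le) := { (inferInstance : Group (sub hB.le)) with mul_comm := hcomm hB }
  -- the restriction
  have hsub : sub hB.le ≤ (sub hA.le).comap (res hL) := by
    rw [comap_sub hA.le hL]
    exact sub_le_sub hAB hB.le
  let f : sub hB.le →* sub hA.le :=
    ((res hL).comp (sub hB.le).subtype).codRestrict _ fun x => hsub x.2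
  obtain ⟨fA, hfA⟩ := hA.exists_surjective
  obtain ⟨fB, hfB⟩ := hB.exists_surjective
  rw [card_torsion_eq_of_surjective fA hfA (by
      rw [hA.card, classNumber, Nat.card_eq_fintype_card]),
    card_torsion_eq_of_surjective fB hfB (by
      rw [hB.card, classNumber, Nat.card_eq_fintype_card])]
  refine card_torsion_le_of_index p f (Nat.le_of_dvd ?_ ?_)
  · refine Nat.pos_of_ne_zero fun h0 => ?_
    rw [h0, mul_zero] at hr
    exact Module.finrank_pos.ne hr
  -- the index of the image divides the index of `Gal(/B)` in `Gal(/A)`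
  have hle : sub hB.le ≤ sub (hAB.trans hB.le) := sub_le_sub hAB hB.le
  have h1 : (sub hB.le).relIndex (sub (hAB.trans hB.le)) = r := by
    have hcard : ∀ {E : IntermediateField K (AlgebraicClosure K)} [FiniteDimensional K E]
        [IsGalois K E] (h : E ≤ LB),
        Nat.card (sub h) * Module.finrank K E = Module.finrank K LB := fun {E} _ _ h => by
      rw [← IsGalois.card_aut_eq_finrank K E, ← IsGalois.card_aut_eq_finrank K LB,
        ← Subgroup.card_mul_index (sub h), ← ker_res, Subgroup.index_ker,
        MonoidHom.range_eq_top.2 (res_surjective h), Subgroup.card_top]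
    have e1 := hcard (hAB.trans hB.le)
    rw [← hcard hB.le, ← Subgroup.relIndex_bot_left, ← Subgroup.relIndex_bot_left,
      ← Subgroup.relIndex_mul_relIndex ⊥ _ _ bot_le hle, ← hr, mul_assoc,
      mul_comm (Module.finrank K A) r] at e1
    refine Nat.eq_of_mul_eq_mul_right (Module.finrank_pos (R := K) (M := A))
      (Nat.eq_of_mul_eq_mul_left ?_ e1)
    rw [Subgroup.relIndex_bot_left]
    exact Nat.card_pos
  have h2 : f.range.index = ((sub hB.le).map (res hL)).relIndex (sub hA.le) := by
    rw [Subgroup.relIndex]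
    congr 1
    ext x
    simp only [MonoidHom.mem_range, Subgroup.mem_subgroupOf, Subgroup.mem_map]
    exact ⟨fun ⟨y, hy⟩ => ⟨y.1, y.2, congrArg Subtype.val hy⟩,
      fun ⟨y, hy, hyx⟩ => ⟨⟨y, hy⟩, Subtype.ext hyx⟩⟩
  have h3 : (sub (hAB.trans hB.le)).map (res hL) = sub hA.le := map_sub_eq hA.le hL
  rw [h2, ← h3, ← h1, Subgroup.relIndex_map_map]
  rw [sup_of_le_left (show (res hL).ker ≤ sub (hAB.trans hB.le) by
    rw [ker_res]; exact sub_le_sub hA.le hL)]
  exact Subgroup.relIndex_dvd_of_le_left _ le_sup_left

end FA.FerreroAbelian
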