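import Fermat.Agent.FerreroAbelian.Cyclotomic
import Fermat.Agent.FerreroAbelian.Levels
import Fermat.Agent.FerreroAbelian.Norm
import Fermat.Agent.Root.SummaryKroneckerWeber
import Mathlib.RingTheory.Polynomial.Cyclotomic.Basic

/-!
# The theorem of Ferrero and Washington for abelian fields

`p` is odd and `K/ℚ` is abelian. By Kronecker and Weber the level `j` of the cyclotomic
`ℤ_p`-extension of `K` lies in a field `ℚ(ζ_{f p^(m+1)})`, `p ∤ f`, of bounded degree over it, so
its `p`-ranks are bounded and `μ = 0` (`exists_muZero_abelian`).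
-/

set_option autoImplicit false
set_option linter.unusedSectionVars false
set_option linter.style.haveILetI false

noncomputable section

open NumberField
open FA.IwasawaGrowth
open FA.MuExtensions (cycOver)

namespace FA.FerreroAbelian

variable {p : ℕ} [hp : Fact p.Prime]

attribute [local instance] numberField_sub ZpTower.finite_level ZpTower.isGalois

/-- An abelian field in fields of roots of unity of the levels above `e`. -/
theorem exists_hom_cyclotomic (K : Type) [Field K] [NumberField K] [IsAbelianGalois ℚ K] :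
    ∃ f e : ℕ, 0 < f ∧ ¬ p ∣ f ∧ ∀ m, e ≤ m → ∀ (F : Type) [Field F] [NumberField F]
      [IsCyclotomicExtension {f * p ^ (m + 1)} ℚ F], Nonempty (K →+* F) := by
  obtain ⟨N, hN, ⟨g⟩⟩ := FA.Summary.kroneckerWeber_cyclotomicField K
  obtain ⟨e, f, hf, hNef⟩ := Nat.exists_eq_pow_mul_and_not_dvd hN.ne' p hp.out.ne_one
  have hf0 : 0 < f := Nat.pos_of_ne_zero fun h => hf (h ▸ dvd_zero p)
  refine ⟨f, e, hf0, hf, fun m hm F _ _ _ => ?_⟩
  haveI : NeZero N := ⟨hN.ne'⟩
  haveI : NeZero (N : ℚ) := ⟨Nat.cast_ne_zero.2 hN.ne'⟩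
  haveI : IsCyclotomicExtension {N} ℚ (CyclotomicField N ℚ) :=
    CyclotomicField.isCyclotomicExtension N ℚ
  haveI hM : NeZero (f * p ^ (m + 1)) :=
    ⟨Nat.mul_ne_zero hf0.ne' (pow_ne_zero _ hp.out.ne_zero)⟩
  obtain ⟨c, hc⟩ : N ∣ f * p ^ (m + 1) := by
    rw [hNef, mul_comm]
    exact mul_dvd_mul_left _ (pow_dvd_pow p (hm.trans m.le_succ))
  have hz : IsPrimitiveRoot ((IsCyclotomicExtension.zeta (f * p ^ (m + 1)) ℚ F) ^ c) N :=
    (IsCyclotomicExtension.zeta_spec (f * p ^ (m + 1)) ℚ F).pow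
      (Nat.pos_of_ne_zero (NeZero.ne _)) (hc.trans (mul_comm _ _))
  haveI : Polynomial.IsSplittingField ℚ (CyclotomicField N ℚ) (Polynomial.X ^ N - 1) :=
    IsCyclotomicExtension.isSplittingField_X_pow_sub_one N ℚ (CyclotomicField N ℚ)
  let ψ : CyclotomicField N ℚ →ₐ[ℚ] F :=
    Polynomial.IsSplittingField.lift (CyclotomicField N ℚ) (Polynomial.X ^ N - 1) (by
      rw [Polynomial.map_sub, Polynomial.map_pow, Polynomial.map_X, Polynomial.map_one]
      exact Polynomial.X_pow_sub_one_splits hz)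
  exact ⟨ψ.toRingHom.comp g.toRingHom⟩

/-- **Ferrero and Washington: bounded ranks and `μ = 0` for every abelian field.** -/
theorem exists_muZero_abelian (hp2 : p ≠ 2) (K : Type) [Field K] [NumberField K]
    [IsAbelianGalois ℚ K] (T : ZpTower p K) (hT : IsCyclotomicTower K p T) :
    ∃ (lam : ℕ) (nu : ℤ) (n₀ C : ℕ), ∀ n,
      (n₀ ≤ n → (padicValNat p (classNumber (T.field n)) : ℤ) = lam * n + nu) ∧
        Nat.card (powMonoidHom p :
          ClassGroup (𝓞 (T.field n)) →* ClassGroup (𝓞 (T.field n))).ker ≤ C := by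
  obtain ⟨f, e, hf0, hf, hhom⟩ := exists_hom_cyclotomic (p := p) K
  haveI : NeZero f := ⟨hf0.ne'⟩
  obtain ⟨D, hD⟩ := exists_shift (K := K) (p := p) hp2
  obtain ⟨C, hC⟩ := exists_rank_le_cyclotomic (p := p) (f := f) hp2 hf
  have hbound : ∀ j, Nat.card (powMonoidHom p :
      ClassGroup (𝓞 (T.field j)) →* ClassGroup (𝓞 (T.field j))).ker ≤
        f * p ^ (D + e + 1) * C := fun j => by
    set m := j + D + e with hm
    let F := CyclotomicField (f * p ^ (m + 1)) ℚ
    haveI : NeZero ((f * p ^ (m + 1) : ℕ) : ℚ) := ⟨Nat.cast_ne_zero.2 (NeZero.ne _)⟩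
    haveI : IsCyclotomicExtension {f * p ^ (m + 1)} ℚ F :=
      CyclotomicField.isCyclotomicExtension _ ℚ
    haveI : NumberField F := IsCyclotomicExtension.numberField {f * p ^ (m + 1)} ℚ F
    haveI : IsGalois ℚ F := IsCyclotomicExtension.isGalois {f * p ^ (m + 1)} ℚ F
    obtain ⟨κ⟩ := hhom m (Nat.le_add_left e _) F
    letI : Algebra K F := κ.toAlgebra
    haveI : IsScalarTower ℚ K F :=
      IsScalarTower.of_algebraMap_eq fun x => (κ.map_rat_algebraMap x).symm
    haveI : FiniteDimensional K F := Module.Finite.right ℚ K F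
    haveI : IsGalois K F := IsGalois.tower_top_of_isGalois ℚ K F
    let h : F →ₐ[K] AlgebraicClosure K := IsAlgClosed.lift
    let u : F ≃ₐ[K] h.fieldRange := AlgEquiv.ofInjectiveField h
    haveI : FiniteDimensional K h.fieldRange := u.toLinearEquiv.finiteDimensional
    haveI : IsGalois K h.fieldRange := IsGalois.of_algEquiv u
    have hle : T.field j ≤ h.fieldRange := by
      refine (hD T hT j).trans (IntermediateField.adjoin_le_iff.2 ?_)
      rintro b ⟨q, hq, -, hb⟩
      rw [Set.mem_singleton_iff.1 hq] at hb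
      haveI : NeZero (p ^ (j + D + 1)) := ⟨pow_ne_zero _ hp.out.ne_zero⟩
      obtain ⟨c, hc⟩ : p ^ (j + D + 1) ∣ f * p ^ (m + 1) :=
        (pow_dvd_pow p (by omega)).mul_left _
      have hz' := ((IsCyclotomicExtension.zeta_spec (f * p ^ (m + 1)) ℚ F).pow
        (Nat.pos_of_ne_zero (NeZero.ne _)) (hc.trans (mul_comm _ _))).map_of_injective h.injective
      obtain ⟨i, -, hi⟩ := hz'.eq_pow_of_pow_eq_one hb
      exact ⟨_, (map_pow h _ i).trans hi⟩
    obtain ⟨r, hr⟩ : Module.finrank K (T.field j) ∣ Module.finrank K h.fieldRange := by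
      letI : Algebra (T.field j) h.fieldRange :=
        (IntermediateField.inclusion hle).toRingHom.toAlgebra
      haveI : IsScalarTower K (T.field j) h.fieldRange :=
        IsScalarTower.of_algebraMap_eq fun _ => rfl
      exact Dvd.intro _ (Module.finrank_mul_finrank K (T.field j) h.fieldRange)
    refine (card_torsion_le_of_le hle hr.symm).trans (Nat.mul_le_mul ?_ ?_)
    · have h1 : Module.finrank K F ≤ f * p ^ (m + 1) := by
        refine le_trans ?_ (Nat.totient_le _)
        rw [← IsCyclotomicExtension.Rat.finrank (f * p ^ (m + 1)) (K := F),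
          ← Module.finrank_mul_finrank ℚ K F]
        exact Nat.le_mul_of_pos_left _ Module.finrank_pos
      rw [u.toLinearEquiv.finrank_eq, hr, T.finrank_eq] at h1
      refine Nat.le_of_mul_le_mul_left (h1.trans (le_of_eq ?_)) (pow_pos hp.out.pos j)
      rw [hm]
      ring
    · exact (card_torsion_eq_of_ringEquiv u.symm.toRingEquiv p).trans_le (hC m F)
  obtain ⟨lam, nu, n₀, hlam, -⟩ := T.mu_eq_zero_of_le (a := 0) (b := f * p ^ (D + e + 1) * C)
    (n₁ := 0) fun n _ => (hbound n).trans (by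
      rw [zero_mul, zero_add]
      exact (Nat.lt_pow_self hp.out.one_lt).le)
  exact ⟨lam, nu, n₀, _, fun n => ⟨hlam n, hbound n⟩⟩

end FA.FerreroAbelian
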