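import Fermat.Agent.FerreroAbelian.Product

/-!
# The relative class number of `ℚ(ζ_{f p^(n+1)})` grows linearly in `n`

For an odd prime `p` not dividing `f` the product over the odd characters modulo `f p^(n+1)` loses
at most a fixed power of `p` per level, so `v_p h - v_p h⁺ ≤ a n + b` (`exists_minus_le`).
-/

set_option autoImplicit false
set_option linter.unusedSectionVars false
set_option linter.style.haveILetI false

noncomputable section

open NumberField DirichletCharacter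
open FA.IwasawaMinus (term)
open scoped Classical

namespace FA.FerreroAbelian

variable {p : ℕ} [hp : Fact p.Prime] {f : ℕ} [NeZero f]

instance neZero_level (n : ℕ) : NeZero (f * p ^ (n + 1)) :=
  ⟨Nat.mul_ne_zero (NeZero.ne f) (pow_ne_zero _ hp.out.ne_zero)⟩

/-- The odd characters modulo `N`. -/
def oddChars (N : ℕ) [NeZero N] : Finset (DirichletCharacter ℂ N) :=
  Finset.univ.filter fun χ => χ.Odd

/-- The absolute value of the product over the odd characters. -/
def szProd (p f n : ℕ) [Fact p.Prime] [NeZero f] : ℝ :=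
  ∏ χ ∈ oddChars (f * p ^ (n + 1)), sz p (term χ)

theorem szProd_nonneg (n : ℕ) : 0 ≤ szProd p f n := Finset.prod_nonneg fun _ _ => sz_nonneg _

/-- **One step.** -/
theorem exists_szProd_succ (hp2 : p ≠ 2) (hf : ¬ p ∣ f) :
    ∃ k₀ a, ∀ k, k₀ ≤ k → szProd p f k * (p : ℝ)⁻¹ ^ a ≤ szProd p f (k + 1) := by
  have hcop : ∀ d, d ∣ f → d.Coprime p := fun d hd =>
    (Nat.coprime_comm.1 (hp.out.coprime_iff_not_dvd.2 hf)).coprime_dvd_left hd
  have hex : ∀ d, ∃ k₀ LAM, d ∣ f → ∀ k, k₀ ≤ k → ∀ (m : ℕ) (χ : DirichletCharacter ℂ m),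
      m = d * p ^ (k + 1 + 1) → χ.IsPrimitive → χ.Odd →
      (p : ℝ)⁻¹ ^ LAM ≤ sz p (FA.AbelianFE.bernoulliOne' m χ) ^ ((p - 1) * p ^ k) := fun d => by
    by_cases hd : d ∣ f
    · haveI : NeZero d := ⟨fun e => NeZero.ne f (Nat.eq_zero_of_zero_dvd (e ▸ hd))⟩
      obtain ⟨k₀, LAM, h⟩ := exists_sz_ge (p := p) hp2 (hcop d hd)
      exact ⟨k₀, LAM, fun _ => h⟩
    · exact ⟨0, 0, fun h => absurd h hd⟩
  choose k₀ LAM hb using hex
  set L := f.divisors.sup LAM
  refine ⟨f.divisors.sup k₀, L * (f * p ^ 2), fun k hk => ?_⟩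
  set π := (p : ℝ)⁻¹ with hπ
  have hπ0 : 0 < π := inv_pos.2 (by exact_mod_cast hp.out.pos)
  have hπ1 : π ≤ 1 := inv_le_one_of_one_le₀ (by exact_mod_cast hp.out.one_le)
  have hdvd : f * p ^ (k + 1) ∣ f * p ^ (k + 1 + 1) :=
    mul_dvd_mul_left f (pow_dvd_pow p (Nat.le_succ _))
  set O := oddChars (f * p ^ (k + 1 + 1)) with hO
  have hold : ∏ χ ∈ O.filter (fun χ => χ.conductor ∣ f * p ^ (k + 1)), sz p (term χ) =
      szProd p f k := by
    have hneg : ∀ χ₀ : DirichletCharacter ℂ (f * p ^ (k + 1)),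
        changeLevel hdvd χ₀ (-1) = χ₀ (-1) := fun χ₀ => by
      show changeLevel hdvd χ₀
        ((-1 : (ZMod (f * p ^ (k + 1 + 1)))ˣ) : ZMod (f * p ^ (k + 1 + 1))) = _
      rw [changeLevel_eq_cast_of_dvd _ hdvd, Units.val_neg, Units.val_one,
        ← ZMod.castHom_apply (h := hdvd) (R := ZMod (f * p ^ (k + 1))), map_neg, map_one]
    symm
    refine Finset.prod_bij (fun χ₀ _ => changeLevel hdvd χ₀) (fun χ₀ h => ?_)
      (fun _ _ _ _ e => changeLevel_injective hdvd e) (fun χ h => ?_) fun χ₀ _ => ?_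
    · refine Finset.mem_filter.mpr ⟨Finset.mem_filter.mpr ⟨Finset.mem_univ _, ?_⟩, ?_⟩
      · show changeLevel hdvd χ₀ (-1) = -1
        rw [hneg]
        exact (Finset.mem_filter.mp h).2
      · rw [conductor_changeLevel]
        exact χ₀.conductor_dvd_level
    · obtain ⟨h1, h2⟩ := Finset.mem_filter.mp h
      obtain ⟨_, χ₀, rfl⟩ := (mem_conductorSet_iff_conductor_dvd χ hdvd).mpr h2
      refine ⟨χ₀, Finset.mem_filter.mpr ⟨Finset.mem_univ _, ?_⟩, rfl⟩
      show χ₀ (-1) = -1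
      rw [← hneg]
      exact (Finset.mem_filter.mp h1).2
    · haveI : NeZero χ₀.conductor := ⟨χ₀.conductor_ne_zero⟩
      rw [term, term, FA.AbelianFE.primitive_unique (χ₀.conductor_dvd_level.trans hdvd)
        χ₀.primitiveCharacter_isPrimitive (χ := changeLevel hdvd χ₀)
        (by rw [changeLevel_trans _ χ₀.conductor_dvd_level hdvd, changeLevel_primitiveCharacter])
        FA.AbelianFE.bernoulliOne']
  set new := O.filter (fun χ => ¬ χ.conductor ∣ f * p ^ (k + 1))
  set φ := (p - 1) * p ^ k with hφ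
  have hφ0 : φ ≠ 0 := (FA.IwasawaMinus.phi_pos k).ne'
  have hnew : ∀ χ ∈ new, π ^ L ≤ sz p (term χ) ^ φ := fun χ hχ => by
    obtain ⟨h1, h2⟩ := Finset.mem_filter.1 hχ
    obtain ⟨a, b, ha, hb', hab⟩ := Nat.dvd_mul.1 χ.conductor_dvd_level
    obtain ⟨j, hj, rfl⟩ := (Nat.dvd_prime_pow hp.out).1 hb'
    rcases Nat.lt_or_ge j (k + 1 + 1) with hlt | hge
    · exact absurd (hab ▸ mul_dvd_mul ha (pow_dvd_pow p (Nat.lt_succ_iff.1 hlt))) h2
    obtain rfl : j = k + 1 + 1 := le_antisymm hj hge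
    have hmem : a ∈ f.divisors := Nat.mem_divisors.2 ⟨ha, NeZero.ne f⟩
    haveI : NeZero χ.conductor := ⟨χ.conductor_ne_zero⟩
    rw [sz_term hp2]
    refine le_trans (pow_le_pow_of_le_one hπ0.le hπ1 (Finset.le_sup hmem))
      (hb a ha k ((Finset.le_sup hmem).trans hk) _ _ hab.symm
        χ.primitiveCharacter_isPrimitive ?_)
    show χ.primitiveCharacter (-1) = -1
    rw [FA.AbelianFE.primitiveCharacter_neg_one]
    exact (Finset.mem_filter.1 h1).2
  have hcard : new.card ≤ φ * (f * p ^ 2) := by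
    refine (Finset.card_le_univ _).trans ?_
    rw [← Nat.card_eq_fintype_card, card_eq_totient_of_hasEnoughRootsOfUnity]
    refine (Nat.totient_le _).trans ?_
    calc f * p ^ (k + 1 + 1) = p ^ k * (f * p ^ 2) := by ring
      _ ≤ φ * (f * p ^ 2) := Nat.mul_le_mul_right _
        (Nat.le_mul_of_pos_left _ (Nat.sub_pos_of_lt hp.out.one_lt))
  have hprod : π ^ (L * (f * p ^ 2)) ≤ ∏ χ ∈ new, sz p (term χ) := by
    refine le_of_pow_le_pow_left₀ hφ0 (Finset.prod_nonneg fun _ _ => sz_nonneg _) ?_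
    rw [← Finset.prod_pow]
    refine le_trans ?_ (Finset.prod_le_prod (fun _ _ => pow_nonneg hπ0.le L) hnew)
    rw [Finset.prod_const, ← pow_mul, ← pow_mul]
    refine pow_le_pow_of_le_one hπ0.le hπ1 ?_
    rw [mul_assoc, mul_comm (f * p ^ 2)]
    exact Nat.mul_le_mul_left L hcard
  rw [szProd, szProd, ← Finset.prod_filter_mul_prod_filter_not O
    (fun χ => χ.conductor ∣ f * p ^ (k + 1)), hold]
  exact mul_le_mul_of_nonneg_left hprod (szProd_nonneg k)

/-- A level is CM. -/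
theorem isCMField_level (hp2 : p ≠ 2) (n : ℕ) (K : Type*) [Field K] [NumberField K]
    [IsCyclotomicExtension {f * p ^ (n + 1)} ℚ K] : IsCMField K :=
  IsCyclotomicExtension.Rat.isCMField K (S := {f * p ^ (n + 1)}) ⟨_, rfl, by
    have h1 : p ≤ p ^ (n + 1) := Nat.le_self_pow n.succ_ne_zero p
    have h2 : p ^ (n + 1) ≤ f * p ^ (n + 1) := Nat.le_mul_of_pos_left _ (NeZero.pos f)
    have := hp.out.two_le
    omega⟩

set_option backward.isDefEq.respectTransparency false in
/-- The class number formula in absolute values. -/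
theorem classNumber_eq_szProd (hp2 : p ≠ 2) (n : ℕ) (K : Type) [Field K] [NumberField K]
    [IsCyclotomicExtension {f * p ^ (n + 1)} ℚ K] [IsCMField K] :
    (p : ℝ)⁻¹ ^ padicValNat p (classNumber K) =
      (p : ℝ)⁻¹ ^ (padicValNat p (classNumber (maximalRealSubfield K)) +
        padicValNat p (Units.torsionOrder K)) * szProd p f n := by
  haveI : IsAbelianGalois ℚ K := IsCyclotomicExtension.isAbelianGalois {f * p ^ (n + 1)} ℚ K
  have h := FA.AbelianFE.relativeClassNumber_eq (f * p ^ (n + 1)) K K (AlgHom.id ℚ K)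
  have hfil : (Finset.univ.filter fun χ : DirichletCharacter ℂ (f * p ^ (n + 1)) =>
      χ ∈ FA.AbelianZeta.fieldChars (f * p ^ (n + 1)) K (AlgHom.id ℚ K).fieldRange ∧ χ.Odd) =
      oddChars (f * p ^ (n + 1)) :=
    Finset.filter_congr fun χ _ => and_iff_right ((FA.AbelianZeta.mem_fieldChars_iff _ _ _).mpr
      fun σ hσ => by
        have h1 : σ = 1 := AlgEquiv.ext fun x =>
          (IntermediateField.mem_fixingSubgroup_iff _ _).mp hσ x ⟨x, rfl⟩
        rw [h1, map_one, Units.val_one, map_one])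
  rw [hfil] at h
  change (classNumber K : ℂ) = _ * _ * _ * ∏ χ ∈ oddChars (f * p ^ (n + 1)), term χ at h
  have hs := congrArg (sz p) h
  rw [sz_mul (mul_mem (mul_mem (natCast_mem _ _) (natCast_mem _ _)) (natCast_mem _ _))
      (prod_mem fun χ _ => term_mem χ),
    sz_mul (mul_mem (natCast_mem _ _) (natCast_mem _ _)) (natCast_mem _ _),
    sz_mul (natCast_mem _ _) (natCast_mem _ _), sz_prod _ _ (fun χ _ => term_mem χ)] at hs
  simp only [sz_natCast] at hs
  rw [FA.IwasawaMinus.norm_natCast_eq_pow (classNumber_pos K).ne',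
    FA.IwasawaMinus.norm_natCast_eq_pow (classNumber_pos (maximalRealSubfield K)).ne',
    FA.IwasawaMinus.norm_natCast_eq_pow (Units.torsionOrder_ne_zero K)] at hs
  have hQ : ‖(IsCMField.indexRealUnits K : PadicAlgCl p)‖ = 1 :=
    FA.IwasawaMinus.norm_natCast_of_not_dvd fun hd => by
      rcases IsCMField.indexRealUnits_eq_one_or_two K with q | q <;> rw [q] at hd
      · exact hp.out.ne_one (Nat.dvd_one.1 hd)
      · exact hp2 ((Nat.prime_dvd_prime_iff_eq hp.out Nat.prime_two).1 hd)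
  rw [hs, hQ, mul_one, ← pow_add]
  rfl

/-- The roots of unity. -/
theorem torsionOrder_le (hp2 : p ≠ 2) (hf : ¬ p ∣ f) (n : ℕ) (K : Type) [Field K] [NumberField K]
    [IsCyclotomicExtension {f * p ^ (n + 1)} ℚ K] :
    padicValNat p (Units.torsionOrder K) ≤ n + 1 := by
  rw [IsCyclotomicExtension.Rat.torsionOrder_eq (n := f * p ^ (n + 1)) (K := K)]
  have h2 : padicValNat p 2 = 0 := padicValNat.eq_zero_of_not_dvd fun hd =>
    hp2 ((Nat.prime_dvd_prime_iff_eq hp.out Nat.prime_two).1 hd)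
  have h3 : padicValNat p (f * p ^ (n + 1)) = n + 1 := by
    rw [padicValNat.mul (NeZero.ne f) (pow_ne_zero _ hp.out.ne_zero),
      padicValNat.eq_zero_of_not_dvd hf, padicValNat.prime_pow, zero_add]
  split_ifs
  · exact h3.le
  · rw [padicValNat.mul two_ne_zero (NeZero.ne _), h2, h3, zero_add]

/-- **Linear growth of the minus part.** -/
theorem exists_minus_le (hp2 : p ≠ 2) (hf : ¬ p ∣ f) : ∃ a b n₀ : ℕ, ∀ n, n₀ ≤ n →
    ∀ (K : Type) [Field K] [NumberField K] [IsCyclotomicExtension {f * p ^ (n + 1)} ℚ K]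
      [IsCMField K],
      padicValNat p (classNumber K) ≤
        padicValNat p (classNumber (maximalRealSubfield K)) + (a * n + b) := by
  obtain ⟨k₀, a, hstep⟩ := exists_szProd_succ (f := f) hp2 hf
  set π := (p : ℝ)⁻¹
  have hπ0 : 0 < π := inv_pos.2 (by exact_mod_cast hp.out.pos)
  have hπ1 : π < 1 := inv_lt_one_of_one_lt₀ (by exact_mod_cast hp.out.one_lt)
  -- a field of the base level
  haveI : NeZero ((f * p ^ (k₀ + 1) : ℕ) : ℚ) := ⟨Nat.cast_ne_zero.mpr (NeZero.ne _)⟩
  haveI : IsCyclotomicExtension {f * p ^ (k₀ + 1)} ℚ (CyclotomicField (f * p ^ (k₀ + 1)) ℚ) :=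
    CyclotomicField.isCyclotomicExtension _ ℚ
  haveI : NumberField (CyclotomicField (f * p ^ (k₀ + 1)) ℚ) :=
    IsCyclotomicExtension.numberField {f * p ^ (k₀ + 1)} ℚ _
  haveI := isCMField_level (f := f) hp2 k₀ (CyclotomicField (f * p ^ (k₀ + 1)) ℚ)
  have hpos : 0 < szProd p f k₀ := (szProd_nonneg k₀).lt_of_ne fun e => by
    have h := classNumber_eq_szProd (f := f) hp2 k₀ (CyclotomicField (f * p ^ (k₀ + 1)) ℚ)
    rw [← e, mul_zero] at h
    exact (pow_pos hπ0 _).ne' h
  obtain ⟨b, hb⟩ := exists_pow_lt_of_lt_one hpos hπ1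
  have hall : ∀ n, k₀ ≤ n → π ^ (a * n + b) ≤ szProd p f n := fun n hn => by
    induction n, hn using Nat.le_induction with
    | base => exact (pow_le_pow_of_le_one hπ0.le hπ1.le (Nat.le_add_left _ _)).trans hb.le
    | succ n hn ih =>
      refine le_trans ?_ (hstep n hn)
      rw [show a * (n + 1) + b = a * n + b + a by ring, pow_add]
      exact mul_le_mul_of_nonneg_right ih (pow_pos hπ0 _).le
  refine ⟨a + 1, b + 1, k₀, fun n hn K _ _ _ _ => ?_⟩
  have h := classNumber_eq_szProd (f := f) hp2 n K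
  have h1 : π ^ (padicValNat p (classNumber (maximalRealSubfield K)) +
      padicValNat p (Units.torsionOrder K) + (a * n + b)) ≤
      π ^ padicValNat p (classNumber K) := by
    rw [h, pow_add _ (_ + _)]
    exact mul_le_mul_of_nonneg_left (hall n hn) (pow_pos hπ0 _).le
  have h2 := (pow_le_pow_iff_right_of_lt_one₀ hπ0 hπ1).1 h1
  have h3 := torsionOrder_le hp2 hf n K
  rw [add_mul, one_mul]
  omega

end FA.FerreroAbelian
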