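import Fermat.Agent.FerreroAbelian.Branch
import Fermat.Agent.IwasawaMinus.Growth
import Mathlib.FieldTheory.IsAlgClosed.AlgebraicClosure

/-!
# The odd characters of conductor `d p^(k+2)`

Read through an embedding of the algebraic numbers into an algebraic closure of `ℚ_p`, the value
`B_{1,χ}` of such a character, raised to the power `φ(p^(k+1))`, is at least a constant
(`exists_sz_ge`).
-/

set_option autoImplicit false
set_option linter.unusedSectionVars false
set_option linter.style.haveILetI false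

noncomputable section

open DirichletCharacter
open FA.IwasawaMinus
open scoped Classical

namespace FA.FerreroAbelian

/-- The algebraic numbers. -/
abbrev AlgNum : IntermediateField ℚ ℂ := algebraicClosure ℚ ℂ

variable {p : ℕ} [hp : Fact p.Prime]

/-- An embedding. -/
def embA (p : ℕ) [Fact p.Prime] : AlgNum →+* PadicAlgCl p :=
  haveI : Algebra.IsAlgebraic ℚ AlgNum := algebraicClosure.isAlgebraic ℚ ℂ
  (IsAlgClosed.lift (R := ℚ) (S := AlgNum) (M := PadicAlgCl p)).toRingHom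

/-- The absolute value of an algebraic number. -/
def sz (p : ℕ) [Fact p.Prime] (z : ℂ) : ℝ :=
  if h : z ∈ AlgNum then ‖embA p ⟨z, h⟩‖ else 0

theorem sz_of_mem {z : ℂ} (h : z ∈ AlgNum) : sz p z = ‖embA p ⟨z, h⟩‖ := dif_pos h

theorem sz_nonneg (z : ℂ) : 0 ≤ sz p z := by
  rw [sz]
  split
  · exact norm_nonneg _
  · exact le_rfl

theorem sz_mul {z z' : ℂ} (h : z ∈ AlgNum) (h' : z' ∈ AlgNum) :
    sz p (z * z') = sz p z * sz p z' := by
  rw [sz_of_mem (mul_mem h h'), sz_of_mem h, sz_of_mem h', ← norm_mul, ← map_mul]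
  rfl

theorem sz_natCast (k : ℕ) : sz p (k : ℂ) = ‖(k : PadicAlgCl p)‖ := by
  rw [sz_of_mem (natCast_mem AlgNum k)]
  congr 1
  exact map_natCast (embA p) k

theorem sz_prod {ι : Type*} (s : Finset ι) (f : ι → ℂ) (h : ∀ i ∈ s, f i ∈ AlgNum) :
    sz p (∏ i ∈ s, f i) = ∏ i ∈ s, sz p (f i) := by
  induction s using Finset.induction_on with
  | empty =>
    rw [Finset.prod_empty, Finset.prod_empty, ← Nat.cast_one, sz_natCast, Nat.cast_one, norm_one]
  | insert a s ha ih =>
    rw [Finset.prod_insert ha, Finset.prod_insert ha,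
      sz_mul (h a (Finset.mem_insert_self a s))
        (prod_mem fun i hi => h i (Finset.mem_insert_of_mem hi)),
      ih fun i hi => h i (Finset.mem_insert_of_mem hi)]

/-- The values of a character are algebraic. -/
theorem char_mem {m : ℕ} [NeZero m] (χ : DirichletCharacter ℂ m) (a : ZMod m) : χ a ∈ AlgNum := by
  by_cases ha : IsUnit a
  · refine (mem_algebraicClosure_iff).2 (IsIntegral.isAlgebraic ?_)
    refine IsIntegral.of_pow (Nat.totient_pos.2 (NeZero.pos m)) ?_
    obtain ⟨u, rfl⟩ := ha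
    rw [← map_pow, ← Units.val_pow_eq_pow_val, ZMod.pow_totient, Units.val_one, map_one]
    exact isIntegral_one
  · rw [χ.map_nonunit ha]
    exact zero_mem _

theorem bernoulliOne_mem {m : ℕ} [NeZero m] (χ : DirichletCharacter ℂ m) :
    FA.AbelianFE.bernoulliOne χ ∈ AlgNum :=
  div_mem (sum_mem fun a _ => mul_mem (char_mem χ a) (natCast_mem _ _)) (natCast_mem _ _)

theorem term_mem {N : ℕ} [NeZero N] (χ : DirichletCharacter ℂ N) : term χ ∈ AlgNum := by
  haveI : NeZero χ.conductor := ⟨χ.conductor_ne_zero⟩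
  rw [term, FA.AbelianFE.bernoulliOne'_eq]
  exact div_mem (neg_mem (bernoulliOne_mem _)) (ofNat_mem _ 2)

theorem sz_term (hp2 : p ≠ 2) {N : ℕ} [NeZero N] (χ : DirichletCharacter ℂ N) :
    sz p (term χ) = sz p (FA.AbelianFE.bernoulliOne' χ.conductor χ.primitiveCharacter) := by
  haveI : NeZero χ.conductor := ⟨χ.conductor_ne_zero⟩
  have h := bernoulliOne_mem χ.primitiveCharacter
  rw [term, FA.AbelianFE.bernoulliOne'_eq, sz_of_mem h, sz_of_mem
    (div_mem (neg_mem h) (ofNat_mem AlgNum 2))]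
  have e : (⟨-FA.AbelianFE.bernoulliOne χ.primitiveCharacter / 2,
      div_mem (neg_mem h) (ofNat_mem AlgNum 2)⟩ : AlgNum) =
      -(⟨FA.AbelianFE.bernoulliOne χ.primitiveCharacter, h⟩ : AlgNum) / ((2 : ℕ) : AlgNum) :=
    Subtype.ext (by push_cast; rfl)
  rw [e, map_div₀, map_neg, map_natCast, norm_div, norm_neg,
    norm_natCast_of_not_dvd fun e => hp2 ((Nat.prime_dvd_prime_iff_eq hp.out Nat.prime_two).1 e),
    div_one]

variable {d g : ℕ} [NeZero d]

theorem map_bv {R S : Type*} [Field R] [Field S] (f : R →+* S) (n : ℕ) (χ : ZMod d → R) (η : R) :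
    f (bv d p g n χ η) = bv d p g n (f ∘ χ) (f η) := by
  simp only [bv, stickSum, map_div₀, map_sum, map_mul, map_pow, map_natCast, Function.comp_apply]

theorem coe_bv (n : ℕ) (χ : ZMod d → AlgNum) (η : AlgNum) :
    ((bv d p g n χ η : AlgNum) : ℂ) = bv d p g n (fun a => (χ a : ℂ)) (η : ℂ) := by
  simp only [bv, stickSum]
  push_cast
  rfl

/-- The part modulo `d` of a character. -/
def leftPart {P : ℕ} (h : d.Coprime P) (χ : DirichletCharacter ℂ (d * P)) :
    DirichletCharacter ℂ d where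
  toFun a := χ ((ZMod.chineseRemainder h).symm (a, 1))
  map_one' := by rw [show ((1 : ZMod d), (1 : ZMod P)) = 1 from rfl, map_one, map_one]
  map_mul' a b := by rw [← map_mul, ← map_mul, Prod.mk_mul_mk, one_mul]
  map_nonunit' a ha := χ.map_nonunit fun hu => ha (by
    have h1 := hu.map (ZMod.chineseRemainder h)
    rw [RingEquiv.apply_symm_apply] at h1
    exact (Prod.isUnit_iff.1 h1).1)

theorem apply_pair {P : ℕ} (h : d.Coprime P) (χ : DirichletCharacter ℂ (d * P)) (a : ZMod d)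
    (y : ZMod P) (k : ℕ) :
    χ ((ZMod.chineseRemainder h).symm (a, y ^ k)) =
      leftPart h χ a * χ ((ZMod.chineseRemainder h).symm (1, y)) ^ k := by
  show _ = χ ((ZMod.chineseRemainder h).symm (a, 1)) * _
  rw [← map_pow χ, ← map_pow, ← map_mul χ, ← map_mul, Prod.pow_mk, Prod.mk_mul_mk, one_pow,
    mul_one, one_mul]

/-- A residue as an element. -/
theorem crt_res (hd : d.Coprime p) (n : ℕ) (a : ZMod d) (k : ℕ) :
    ((res d p g n a k : ℕ) : ZMod (d * p ^ (n + 1))) =
      (ZMod.chineseRemainder (coprime_level hd n)).symm (a, (g : ZMod (p ^ (n + 1))) ^ k) := by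
  rw [RingEquiv.eq_symm_apply, map_natCast]
  exact Prod.ext (by rw [Prod.fst_natCast, cast_res_left hd])
    (by rw [Prod.snd_natCast, cast_res_right hd])

/-- `B_{1,χ}` through the generator. -/
theorem bernoulliOne_eq_bv (hg : IsGen p g) (hd : d.Coprime p) (n : ℕ) [NeZero (d * p ^ (n + 1))]
    (χ : DirichletCharacter ℂ (d * p ^ (n + 1))) :
    FA.AbelianFE.bernoulliOne χ = bv d p g n (fun a => leftPart (coprime_level hd n) χ a)
      (χ ((ZMod.chineseRemainder (coprime_level hd n)).symm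
        (1, (g : ZMod (p ^ (n + 1)))))) := by
  haveI : NeZero (p ^ (n + 1)) := ⟨pow_ne_zero _ hp.out.ne_zero⟩
  set e := ZMod.chineseRemainder (coprime_level hd n) with he
  rw [FA.AbelianFE.bernoulliOne, bv, stickSum]
  congr 1
  simp only [Finset.mul_sum, ← mul_assoc]
  rw [← Finset.sum_product', ← Finset.sum_filter_of_ne
    (p := fun x : ZMod (d * p ^ (n + 1)) => IsUnit (e x).2) fun x _ hx => by_contra fun hu => hx
      (by rw [χ.map_nonunit fun h => hu (Prod.isUnit_iff.1 (h.map e)).2, zero_mul])]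
  symm
  refine Finset.sum_bij
    (fun (x : ZMod d × ℕ) _ => e.symm (x.1, (g : ZMod (p ^ (n + 1))) ^ x.2))
    (fun x _ => ?_) (fun x hx y hy h => ?_) (fun x hx => ?_) fun x _ => ?_
  · refine Finset.mem_filter.2 ⟨Finset.mem_univ _, ?_⟩
    rw [RingEquiv.apply_symm_apply, ← genUnit_val hg n]
    exact (genUnit hg n).isUnit.pow _
  · obtain ⟨h1, h2⟩ := Prod.ext_iff.1 (e.symm.injective h)
    have hx' := Finset.mem_range.1 (Finset.mem_product.1 hx).2
    have hy' := Finset.mem_range.1 (Finset.mem_product.1 hy).2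
    rw [← hg.2 n] at hx' hy'
    exact Prod.ext h1 (pow_injOn_Iio_orderOf hx' hy' h2)
  · obtain ⟨k, hk, hk'⟩ := exists_pow_genUnit hg n (Finset.mem_filter.1 hx).2.unit
    refine ⟨((e x).1, k), Finset.mem_product.2 ⟨Finset.mem_univ _, Finset.mem_range.2 hk⟩, ?_⟩
    rw [RingEquiv.symm_apply_eq]
    refine Prod.ext rfl ?_
    rw [← genUnit_val hg n, ← Units.val_pow_eq_pow_val, hk', IsUnit.unit_spec]
  · rw [he, ← crt_res hd, ZMod.val_natCast, Nat.mod_eq_of_lt (res_lt _ _ _), crt_res hd, apply_pair]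

/-- A character killed by the high powers of the generator comes from below. -/
theorem factorsThrough_of_pow (hg : IsGen p g) (hd : d.Coprime p) (k : ℕ)
    (χ : DirichletCharacter ℂ (d * p ^ (k + 1 + 1)))
    (hη : χ ((ZMod.chineseRemainder (coprime_level hd (k + 1))).symm
      (1, (g : ZMod (p ^ (k + 1 + 1))))) ^ ((p - 1) * p ^ k) = 1) :
    χ.FactorsThrough (d * p ^ (k + 1)) := by
  haveI : NeZero (p ^ (k + 1 + 1)) := ⟨pow_ne_zero _ hp.out.ne_zero⟩
  haveI : NeZero (d * p ^ (k + 1 + 1)) := ⟨Nat.mul_ne_zero (NeZero.ne d) (NeZero.ne _)⟩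
  have hdvd : d * p ^ (k + 1) ∣ d * p ^ (k + 1 + 1) :=
    mul_dvd_mul_left d (pow_dvd_pow p (Nat.le_succ _))
  refine (factorsThrough_iff_ker_unitsMap hdvd).2 fun u hu => MonoidHom.mem_ker.2 (Units.ext ?_)
  rw [MonoidHom.mem_ker, Units.ext_iff, ZMod.unitsMap_val, Units.val_one,
    ← ZMod.castHom_apply (h := hdvd) (R := ZMod (d * p ^ (k + 1)))] at hu
  set e := ZMod.chineseRemainder (coprime_level hd (k + 1)) with he
  rw [MulChar.coe_toUnitHom, Units.val_one]
  obtain ⟨t, -, ht⟩ := exists_pow_genUnit hg (k + 1) (Prod.isUnit_iff.1 (u.isUnit.map e)).2.unit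
  have ht' : (g : ZMod (p ^ (k + 1 + 1))) ^ t = (e u).2 := by
    rw [← genUnit_val hg (k + 1), ← Units.val_pow_eq_pow_val, ht, IsUnit.unit_spec]
  have hx : ((u : ZMod (d * p ^ (k + 1 + 1))).val : ZMod (d * p ^ (k + 1))) = 1 := by
    have h := hu
    rwa [← ZMod.natCast_zmod_val (u : ZMod (d * p ^ (k + 1 + 1))), map_natCast] at h
  have hcast : e u = (((u : ZMod (d * p ^ (k + 1 + 1))).val : ZMod d),
      ((u : ZMod (d * p ^ (k + 1 + 1))).val : ZMod (p ^ (k + 1 + 1)))) := by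
    conv_lhs => rw [← ZMod.natCast_zmod_val (u : ZMod (d * p ^ (k + 1 + 1))), map_natCast]
    exact Prod.ext (Prod.fst_natCast _) (Prod.snd_natCast _)
  have h1 : (e u).1 = 1 := by
    have h := congrArg (ZMod.castHom (dvd_mul_right d (p ^ (k + 1))) (ZMod d)) hx
    rw [map_natCast, map_one] at h
    rw [hcast]
    exact h
  have h2 : (g : ZMod (p ^ (k + 1))) ^ t = 1 := by
    have h := congrArg (ZMod.castHom (pow_dvd_pow p (Nat.le_succ (k + 1))) (ZMod (p ^ (k + 1)))) ht'
    rw [map_pow, map_natCast, hcast, map_natCast] at h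
    rw [h]
    have h' := congrArg (ZMod.castHom (dvd_mul_left (p ^ (k + 1)) d) (ZMod (p ^ (k + 1)))) hx
    rwa [map_natCast, map_one] at h'
  rw [← orderOf_dvd_iff_pow_eq_one, hg.2 k] at h2
  obtain ⟨r, rfl⟩ := h2
  rw [← e.symm_apply_apply (u : ZMod _), show e u = ((1 : ZMod d),
      (g : ZMod (p ^ (k + 1 + 1))) ^ ((p - 1) * p ^ k * r)) from Prod.ext h1 ht'.symm, he,
    apply_pair, pow_mul, hη, one_pow, mul_one, map_one]

/-- **The lower bound at conductor `d p^(k+2)`.** -/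
theorem exists_sz_ge (hp2 : p ≠ 2) (hd : d.Coprime p) :
    ∃ k₀ LAM, ∀ k, k₀ ≤ k → ∀ (m : ℕ) (χ : DirichletCharacter ℂ m),
      m = d * p ^ (k + 1 + 1) → χ.IsPrimitive → χ.Odd →
      (p : ℝ)⁻¹ ^ LAM ≤ sz p (FA.AbelianFE.bernoulliOne' m χ) ^ ((p - 1) * p ^ k) := by
  obtain ⟨g, hg⟩ := exists_isGen (p := p) hp2
  -- the characters modulo `d` as integers
  set χO : DirichletCharacter ℂ d → ZMod d → intR p := fun ψ a =>
    ⟨embA p ⟨ψ a, char_mem ψ a⟩, by
      by_cases ha : IsUnit a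
      · obtain ⟨u, rfl⟩ := ha
        refine (norm_eq_one_of_pow (k := Nat.totient d) ?_
          (Nat.totient_pos.2 (NeZero.pos d)).ne').le
        rw [← map_pow, ← map_one (embA p)]
        refine congrArg _ (Subtype.ext ?_)
        rw [SubmonoidClass.coe_pow, OneMemClass.coe_one, ← map_pow, ← Units.val_pow_eq_pow_val,
          ZMod.pow_totient, Units.val_one, map_one]
      · show ‖_‖ ≤ (1 : ℝ)
        rw [show (⟨ψ a, char_mem ψ a⟩ : AlgNum) = 0 from Subtype.ext (ψ.map_nonunit ha), map_zero,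
          norm_zero]
        exact zero_le_one⟩ with hχO
  have hone : ∀ ψ, χO ψ 1 = 1 := fun ψ => Subtype.ext (by
    show embA p _ = 1
    rw [← map_one (embA p)]
    exact congrArg _ (Subtype.ext (map_one ψ)))
  have hmul : ∀ ψ a b, χO ψ (a * b) = χO ψ a * χO ψ b := fun ψ a b => Subtype.ext (by
    show embA p _ = embA p _ * embA p _
    rw [← map_mul]
    exact congrArg _ (Subtype.ext (map_mul ψ a b)))
  have hex : ∀ x : DirichletCharacter ℂ d × (ZMod p)ˣ, ∃ k₀ lam,
      thetaO x.2 ^ ((p - 1) / 2) * χO x.1 (-1) = -1 →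
        ∀ k, k₀ ≤ k → ∀ ζ : PadicAlgCl p, IsPrimitiveRoot ζ (p ^ (k + 1)) → ‖ζ - 1‖ ^ lam ≤
          ‖bv d p g (k + 1) (fun a => (χO x.1 a : PadicAlgCl p)) (theta x.2 * ζ)‖ := fun x => by
    by_cases h : thetaO x.2 ^ ((p - 1) / 2) * χO x.1 (-1) = -1
    · obtain ⟨k₀, lam, hb⟩ := exists_lower_bound hp2 hg hd _ (hone x.1) (hmul x.1) x.2 h
      exact ⟨k₀, lam, fun _ => hb⟩
    · exact ⟨0, 0, fun e => absurd e h⟩
  choose k₀ lam hlow using hex
  refine ⟨Finset.univ.sup k₀, Finset.univ.sup lam, fun k hk m χ hm hprim hodd => ?_⟩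
  subst hm
  haveI : NeZero (p ^ (k + 1 + 1)) := ⟨pow_ne_zero _ hp.out.ne_zero⟩
  haveI : NeZero (d * p ^ (k + 1 + 1)) := ⟨Nat.mul_ne_zero (NeZero.ne d) (NeZero.ne _)⟩
  rw [FA.AbelianFE.bernoulliOne'_eq, sz_of_mem (bernoulliOne_mem χ)]
  set e := ZMod.chineseRemainder (coprime_level hd (k + 1)) with he
  set ψ := leftPart (coprime_level hd (k + 1)) χ with hψ
  have hηm := char_mem χ (e.symm (1, (g : ZMod (p ^ (k + 1 + 1)))))
  set ηA : AlgNum := ⟨χ (e.symm (1, (g : ZMod (p ^ (k + 1 + 1))))), hηm⟩ with hηA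
  have hB : (⟨FA.AbelianFE.bernoulliOne χ, bernoulliOne_mem χ⟩ : AlgNum) =
      bv d p g (k + 1) (fun a => (⟨ψ a, char_mem ψ a⟩ : AlgNum)) ηA := by
    refine Subtype.ext ?_
    rw [coe_bv]
    exact bernoulliOne_eq_bv hg hd (k + 1) χ
  rw [hB, map_bv]
  -- the decomposition of the value at the generator
  have hφ : ηA ^ ((p - 1) * p ^ (k + 1)) = 1 := Subtype.ext (by
    rw [SubmonoidClass.coe_pow, OneMemClass.coe_one, hηA, ← map_pow χ, ← map_pow, Prod.pow_mk,
      one_pow, ← hg.2 (k + 1), pow_orderOf_eq_one, show ((1 : ZMod d), (1 : ZMod (p ^ (k + 1 + 1))))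
        = 1 from rfl, map_one, map_one])
  obtain ⟨u, ζ, hζ, hu⟩ := exists_decomposition (p := p) (n := k + 1) (η := embA p ηA)
    (by rw [← map_pow, hφ, map_one])
  have hprimζ : IsPrimitiveRoot ζ (p ^ (k + 1)) := by
    refine IsPrimitiveRoot.iff_orderOf.mpr (orderOf_eq_prime_pow (fun e0 => ?_) hζ)
    have h1 : embA p ηA ^ ((p - 1) * p ^ k) = 1 := by rw [← hu, theta_mul_pow_phi u e0]
    rw [← map_pow, ← map_one (embA p)] at h1
    have h2 := congrArg Subtype.val ((embA p).injective h1)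
    rw [SubmonoidClass.coe_pow, OneMemClass.coe_one] at h2
    have h3 := factorsThrough_of_pow hg hd k χ h2
    have h4 := Nat.le_of_dvd (Nat.pos_of_ne_zero (NeZero.ne (d * p ^ (k + 1))))
      ((mem_conductorSet_iff_conductor_dvd χ (mul_dvd_mul_left d
        (pow_dvd_pow p (Nat.le_succ (k + 1))))).1 h3)
    rw [(isPrimitive_def χ).1 hprim] at h4
    exact absurd (Nat.le_of_mul_le_mul_left h4 (NeZero.pos d))
      (not_le.2 (Nat.pow_lt_pow_succ hp.out.one_lt))
  have hpar : thetaO u ^ ((p - 1) / 2) * χO ψ (-1) = -1 := Subtype.ext (by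
    have h1 : χ (-1) = -1 := hodd
    have h2 : (-1 : ZMod (d * p ^ (k + 1 + 1))) =
        e.symm (-1, (g : ZMod (p ^ (k + 1 + 1))) ^ ((p - 1) * p ^ (k + 1) / 2)) := by
      rw [pow_half_eq_neg_one hp2 hg (k + 1), RingEquiv.eq_symm_apply, map_neg, map_one]
      rfl
    rw [h2, he, apply_pair] at h1
    have h3 : (⟨ψ (-1), char_mem ψ (-1)⟩ : AlgNum) * ηA ^ ((p - 1) * p ^ (k + 1) / 2) = -1 :=
      Subtype.ext h1
    have h4 := congrArg (embA p) h3
    rw [map_mul, map_pow, map_neg (embA p), map_one (embA p), ← hu,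
      Nat.mul_div_right_comm ((hp.out.odd_of_ne_two hp2).tsub_odd odd_one).two_dvd, mul_pow,
      mul_comm ((p - 1) / 2), pow_mul ζ, hζ, one_pow, mul_one, pow_mul,
      theta_pow_prime_pow] at h4
    show theta u ^ ((p - 1) / 2) * embA p _ = -1
    rw [mul_comm]
    exact h4)
  have hb := hlow (ψ, u) hpar k ((Finset.le_sup (Finset.mem_univ _)).trans hk) ζ hprimζ
  rw [← hu]
  refine le_trans ?_ (pow_le_pow_left₀ (by positivity) hb _)
  rw [← pow_mul, mul_comm (lam (ψ, u)), pow_mul, norm_sub_one_pow hprimζ]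
  exact pow_le_pow_of_le_one (by positivity)
    (inv_le_one_of_one_le₀ (by exact_mod_cast hp.out.one_le)) (Finset.le_sup (Finset.mem_univ _))

end FA.FerreroAbelian
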